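import Mathlib
import Fermat.Prelude.Def_FLTPrelim_Ramification

/-!
# RED : the residue field of a valuation subring of an algebraically closed field  ([RESk])
-/

set_option autoImplicit false

namespace Fermat.Agent.RED

open Polynomial

variable {L : Type*} [Field L]

/-- The residue field of a valuation subring of an algebraically closed field is algebraically
closed. -/
theorem isAlgClosed_resField [IsAlgClosed L] (A : ValuationSubring L) :
    IsAlgClosed (IsLocalRing.ResidueField A) := by
  refine IsAlgClosed.of_exists_root _ fun p hp hirr => ?_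
  obtain ⟨P, hP, hPdeg, hPmonic⟩ :=
    Polynomial.lifts_and_degree_eq_and_monic (f := IsLocalRing.residue A)
      ((Polynomial.mem_lifts p).mpr
        (Polynomial.map_surjective _ IsLocalRing.residue_surjective p)) hp
  have hdeg : (P.map (algebraMap A L)).degree ≠ 0 := by
    rw [hPmonic.degree_map, hPdeg]
    exact (Polynomial.degree_pos_of_irreducible hirr).ne'
  obtain ⟨x, hx⟩ := IsAlgClosed.exists_root _ hdeg
  have hint : IsIntegral A x := ⟨P, hPmonic, by rwa [IsRoot.def, eval_map] at hx⟩
  obtain ⟨y, rfl⟩ := IsIntegrallyClosed.isIntegral_iff.mp hint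
  refine ⟨IsLocalRing.residue A y, ?_⟩
  rw [IsRoot.def, eval_map, eval₂_hom] at hx
  have hy : eval y P = 0 := (FaithfulSMul.algebraMap_injective A L) (by rw [hx, map_zero])
  rw [← hP, eval_map, eval₂_hom, hy, map_zero]

/-- The residue characteristic. -/
theorem charP_resField (A : ValuationSubring L) {ℓ : ℕ} (hℓ : ℓ.Prime)
    (hA : A.LiesOverPrime ℓ) : CharP (IsLocalRing.ResidueField A) ℓ := by
  have h0 : ((ℓ : ℕ) : IsLocalRing.ResidueField A) = 0 := by
    have h1 : ((ℓ : A) : L) ∈ A.nonunits := by
      have h3 : ((ℓ : A) : L) = (ℓ : L) := by simp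
      rw [h3]; exact hA
    have h2 : (ℓ : A) ∈ IsLocalRing.maximalIdeal A := by
      rw [← ValuationSubring.coe_mem_nonunits_iff]; exact h1
    have := (IsLocalRing.residue_eq_zero_iff (ℓ : A)).mpr h2
    simpa using this
  exact (CharP.charP_iff_prime_eq_zero hℓ).mpr h0

/-- The residue field is perfect. -/
theorem perfectRing_resField [IsAlgClosed L] (A : ValuationSubring L) {ℓ : ℕ} (hℓ : ℓ.Prime)
    (hA : A.LiesOverPrime ℓ) :
    haveI := charP_resField A hℓ hA
    haveI : Fact ℓ.Prime := ⟨hℓ⟩
    PerfectRing (IsLocalRing.ResidueField A) ℓ := by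
  haveI := charP_resField A hℓ hA
  haveI : Fact ℓ.Prime := ⟨hℓ⟩
  haveI := isAlgClosed_resField A
  haveI := IsAlgClosed.perfectField (IsLocalRing.ResidueField A)
  exact PerfectField.toPerfectRing ℓ

end Fermat.Agent.RED
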