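import Fermat.Agent.RED.S18.Level
import Fermat.Agent.RED.S18.Wrap
import Fermat.Agent.RED.S18.Descent
import Fermat.Agent.RED.S18.Gen
import Fermat.Agent.RED.Cusp.Final
import Fermat.Agent.S24.CharpolyAlt

/-!
# RED: assembly of S18

`S18(N) ⇐ [WRAP] (K_N) ⇐ [DESC] (K_{Nc}) ⇐ [GEN] gR(F_{Nc}) ≤ gR(Fb_{Nc})`.
-/

set_option autoImplicit false
set_option linter.unusedSectionVars false
noncomputable section
open Polynomial ModularCurve IntermediateField AlgebraicCurve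

namespace Fermat.Agent.RED

open Fermat.Agent.S28 Fermat.Agent.RED.Gauss Fermat.Agent.S24

set_option synthInstance.maxHeartbeats 400000

variable (A : ValuationSubring (AlgebraicClosure ℚ)) (N : ℕ) [NeZero N] {ℓ : ℕ} [Fact ℓ.Prime]

/-- `j` is a separating parameter of `F_N` over `ℚ̄`. -/
theorem isSepParam_jF : IsSepParam Kb (jF N) :=
  IsSepParam.of_charZero (isFiniteParam_jF_of N (CPAlt.charpolyCoeff N))

/-- `j` is a separating parameter of the residue function field. -/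
theorem isSepParam_jb_residue (hA : A.LiesOverPrime ℓ) (hℓN : ¬ ℓ ∣ N) :
    IsSepParam (IsLocalRing.ResidueField A) (Cusp.jb (IsLocalRing.ResidueField A) N) :=
  haveI := charP_residueField A hA
  haveI := isAlgClosed_residueField A
  Cusp.isSepParam_jb N (IsLocalRing.ResidueField A) ℓ hℓN

/-- **(K) at a level with `gR F ≤ gR Fb`**, for the Gauss datum over `ℚ̄`. -/
theorem kProp_gaussData (hA : A.LiesOverPrime ℓ) (hℓN : ¬ ℓ ∣ N)
    (GEN : gR (AlgebraicClosure ℚ) (modularFunctionFieldBar N) ≤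
      gR (IsLocalRing.ResidueField A) (modularFunctionFieldFullC (IsLocalRing.ResidueField A) N))
    {m : ℕ} (hm : ¬ ℓ ∣ m) : KProp (gaussData A N hA hℓN) m :=
  haveI := charP_residueField A hA
  haveI := isAlgClosed_residueField A
  kProp_gaussRedData (IsLocalRing.residue A) IsLocalRing.residue_surjective (card_Q_pos N)
    (exists_isCoreExt N ℓ hℓN).choose_spec (isSepParam_jF N) (isSepParam_jb_residue A N hA hℓN)
    GEN hm

/-- **[WRAP]** over `ℚ̄`. -/
theorem eq_zero_of_kProp_gaussData (hA : A.LiesOverPrime ℓ) (hℓN : ¬ ℓ ∣ N)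
    (h : ReductionInputsModL A N) {m : ℕ} (hm : ¬ ℓ ∣ m)
    (HK : KProp (gaussData A N hA hℓN) m) (z : JZero N)
    (hmz : m • z = 0) (hz : reductionModL A N z = 0) : z = 0 :=
  haveI := charP_residueField A hA
  haveI := isAlgClosed_residueField A
  eq_zero_of_kProp (IsLocalRing.residue A) IsLocalRing.residue_surjective (card_Q_pos N)
    (exists_isCoreExt N ℓ hℓN).choose_spec (isSepParam_jF N) (isSepParam_jb_residue A N hA hℓN)
    h (fun h0 : m = 0 => hm (h0.symm ▸ dvd_zero ℓ)) HK z hmz hz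

/-- **S18 from [GEN] at level `N * c` and [DESC]**. -/
theorem s18_of_gen_desc (hA : A.LiesOverPrime ℓ) (hℓN : ¬ ℓ ∣ N) (c : ℕ) [NeZero c]
    (hℓNc : ¬ ℓ ∣ N * c)
    (GEN : gR (AlgebraicClosure ℚ) (modularFunctionFieldBar (N * c)) ≤
      gR (IsLocalRing.ResidueField A)
        (modularFunctionFieldFullC (IsLocalRing.ResidueField A) (N * c)))
    (DESC : ∀ m : ℕ, ¬ ℓ ∣ m → KProp (gaussData A (N * c) hA hℓNc) m →
      KProp (gaussData A N hA hℓN) m)
    (h : ReductionInputsModL A N) (m : ℕ) (hm : ¬ ℓ ∣ m) (z : JZero N)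
    (hmz : m • z = 0) (hz : reductionModL A N z = 0) : z = 0 :=
  eq_zero_of_kProp_gaussData A N hA hℓN h hm
    (DESC m hm (kProp_gaussData A (N * c) hA hℓNc GEN hm)) z hmz hz

/-- **S18 from [GEN] at level `N p²`** (`p` a prime different from `ℓ`). -/
theorem s18_of_gen (hA : A.LiesOverPrime ℓ) (hℓN : ¬ ℓ ∣ N) {p : ℕ} (hp : p.Prime)
    [NeZero (p * p)] (hℓNc : ¬ ℓ ∣ N * (p * p))
    (GEN : gR (AlgebraicClosure ℚ) (modularFunctionFieldBar (N * (p * p))) ≤
      gR (IsLocalRing.ResidueField A)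
        (modularFunctionFieldFullC (IsLocalRing.ResidueField A) (N * (p * p))))
    (h : ReductionInputsModL A N) (m : ℕ) (hm : ¬ ℓ ∣ m) (z : JZero N)
    (hmz : m • z = 0) (hz : reductionModL A N z = 0) : z = 0 :=
  s18_of_gen_desc A N hA hℓN (p * p) hℓNc GEN
    (fun m hm HK => kProp_descent A N hA hℓN hp hℓNc (fun h0 : m = 0 => hm (h0.symm ▸ dvd_zero ℓ)) HK)
    h m hm z hmz hz

/-- The relative Riemann–Hurwitz inequality (the last input of S18). -/
def RHRelStatement : Prop :=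
  ∀ (K F₁ F₂ : Type) [Field K] [Field F₁] [Field F₂] [Algebra K F₁] [Algebra K F₂]
    [Algebra F₁ F₂] [IsScalarTower K F₁ F₂] [IsAlgClosed K] (x : F₁),
    IsSepParam K x → IsSepParam K (algebraMap F₁ F₂ x) → RB.RHRel K F₁ F₂ x

/-- (RH-rel) for the tower `Fb_M ⊆ Fb_N`. -/
theorem rhRel_Fb (H : RHRelStatement) {M : ℕ} [NeZero M] (hMN : M ∣ N) (k : Type) [Field k]
    [IsAlgClosed k] [CharP k ℓ] (hℓN : ¬ ℓ ∣ N) :
    letI := RB.algFb k hMN
    RB.RHRel k (Cusp.Fb k M) (Cusp.Fb k N) (Cusp.jb k M) := by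
  letI := RB.algFb k hMN
  haveI := RB.isScalarTower_algFb k hMN
  exact H k (Cusp.Fb k M) (Cusp.Fb k N) (Cusp.jb k M)
    (Cusp.isSepParam_jb M k ℓ (fun h' => hℓN (h'.trans hMN))) (Cusp.isSepParam_jb N k ℓ hℓN)

/-- **[GEN] from (RH-rel).** -/
theorem gen_of_rhRel (H : RHRelStatement) (h49 : 4 ∣ N ∨ 9 ∣ N) (k : Type) [Field k]
    [IsAlgClosed k] [CharP k ℓ] (hℓN : ¬ ℓ ∣ N) :
    gR (AlgebraicClosure ℚ) (modularFunctionFieldBar N) ≤ gR k (modularFunctionFieldFullC k N) :=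
  gR_le_of_rel N k ℓ hℓN h49 (fun h => rhRel_Fb N H h k hℓN) (fun h => rhRel_Fb N H h k hℓN)

/-- **(K) at every level `N` prime to `ℓ`, from (RH-rel).** -/
theorem kProp_of_rhRel (H : RHRelStatement) (hA : A.LiesOverPrime ℓ) (hℓN : ¬ ℓ ∣ N)
    {m : ℕ} (hm : ¬ ℓ ∣ m) : KProp (gaussData A N hA hℓN) m := by
  haveI := charP_residueField A hA
  haveI := isAlgClosed_residueField A
  have hℓ : ℓ.Prime := Fact.out
  have hm0 : m ≠ 0 := fun h0 : m = 0 => hm (h0.symm ▸ dvd_zero ℓ)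
  by_cases h2 : ℓ = 2
  · have hℓNc : ¬ ℓ ∣ N * (3 * 3) := by
      intro hd
      rcases (Nat.Prime.dvd_mul hℓ).mp hd with h' | h'
      · exact hℓN h'
      · rw [h2] at h'; omega
    exact kProp_descent A N hA hℓN Nat.prime_three hℓNc hm0 (kProp_gaussData A _ hA hℓNc
      (gen_of_rhRel (N * (3 * 3)) H (Or.inr (Dvd.intro_left N rfl)) _ hℓNc) hm)
  · have hℓNc : ¬ ℓ ∣ N * (2 * 2) := by
      intro hd
      rcases (Nat.Prime.dvd_mul hℓ).mp hd with h' | h'
      · exact hℓN h'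
      · rcases (Nat.Prime.dvd_mul hℓ).mp h' with h'' | h'' <;>
          exact h2 ((Nat.prime_dvd_prime_iff_eq hℓ Nat.prime_two).mp h'')
    exact kProp_descent A N hA hℓN Nat.prime_two hℓNc hm0 (kProp_gaussData A _ hA hℓNc
      (gen_of_rhRel (N * (2 * 2)) H (Or.inl (Dvd.intro_left N rfl)) _ hℓNc) hm)

/-- **S18 from (RH-rel).** -/
theorem s18_of_rhRel (H : RHRelStatement) (hℓN : ¬ ℓ ∣ N) (hA : A.LiesOverPrime ℓ)
    (h : ReductionInputsModL A N) (m : ℕ) (hm : ¬ ℓ ∣ m) (z : JZero N)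
    (hmz : m • z = 0) (hz : reductionModL A N z = 0) : z = 0 := by
  haveI := charP_residueField A hA
  haveI := isAlgClosed_residueField A
  have hℓ : ℓ.Prime := Fact.out
  by_cases h2 : ℓ = 2
  · -- `p = 3`
    have hℓNc : ¬ ℓ ∣ N * (3 * 3) := by
      intro hd
      rcases (Nat.Prime.dvd_mul hℓ).mp hd with h' | h'
      · exact hℓN h'
      · rw [h2] at h'; omega
    exact s18_of_gen A N hA hℓN Nat.prime_three hℓNc
      (gen_of_rhRel (N * (3 * 3)) H (Or.inr (Dvd.intro_left N rfl)) _ hℓNc) h m hm z hmz hz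
  · -- `p = 2`
    have hℓNc : ¬ ℓ ∣ N * (2 * 2) := by
      intro hd
      rcases (Nat.Prime.dvd_mul hℓ).mp hd with h' | h'
      · exact hℓN h'
      · rcases (Nat.Prime.dvd_mul hℓ).mp h' with h'' | h'' <;>
          exact h2 ((Nat.prime_dvd_prime_iff_eq hℓ Nat.prime_two).mp h'')
    exact s18_of_gen A N hA hℓN Nat.prime_two hℓNc
      (gen_of_rhRel (N * (2 * 2)) H (Or.inl (Dvd.intro_left N rfl)) _ hℓNc) h m hm z hmz hz

end Fermat.Agent.RED
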