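import Fermat.Agent.RED.TorsESWire
import Fermat.Agent.RED.ES.Norm

/-!
# RED / TorsES : Kronecker's congruence for Gauss units

`CongrAll N` from the congruence for integral `q`-series (`ES.norm_congruence`) and the fact that
every Gauss unit is a quotient of two integral `q`-series of the function field with nonzero
reductions (`exists_integral_quotient`).
-/

set_option autoImplicit false
set_option linter.style.haveILetI false
set_option linter.unusedSectionVars false
set_option synthInstance.maxHeartbeats 400000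
noncomputable section

open ModularCurve AlgebraicCurve

namespace Fermat.Agent.RED.TorsES

open Fermat.Agent.RED.Gauss

local notation "Qb" => AlgebraicClosure ℚ

theorem normAlong_mul {K F F' : Type*} [Field K] [Field F] [Field F'] [Algebra K F] [Algebra K F']
    (ψ : F →ₐ[K] F') (z w : F') : normAlong ψ (z * w) = normAlong ψ z * normAlong ψ w := by
  letI := algebraAlong ψ
  exact map_mul (Algebra.norm F) z w

variable {N : ℕ} [NeZero N] {A : ValuationSubring Qb} {k : Type*} [Field k] {π : A →+* k}

/-- Kronecker's congruence for Gauss units from the congruence for integral series. -/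
theorem congr_of_integral (hN : Norm π (modularFunctionFieldBar N)) (ℓ : ℕ) [NeZero ℓ]
    [Fact ℓ.Prime] [CharP k ℓ]
    (hq : ∀ f : LaurentSeries Qb, f ∈ modularFunctionFieldBar N → f ≠ 0 →
      ∃ (c : Qb) (a b : LaurentSeries A), c ≠ 0 ∧
        iota A a ∈ modularFunctionFieldBar N ∧ iota A b ∈ modularFunctionFieldBar N ∧
        pi π a ≠ 0 ∧ pi π b ≠ 0 ∧
        f * iota A b = algebraMap Qb (LaurentSeries Qb) c * iota A a)
    (hc : ∀ (y₀ : LaurentSeries A) (hy : iota A y₀ ∈ modularFunctionFieldBar N),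
      ∃ z₀ : LaurentSeries A,
        iota A z₀ = ((normAlong (heckeAlphaBar Qb N ℓ) (heckeBetaBar Qb N ℓ ⟨_, hy⟩) :
          modularFunctionFieldBar N) : LaurentSeries Qb) ∧
        pi π z₀ = qExpand k ℓ (pi π y₀) * coeffMap (frobenius k ℓ) (pi π y₀)) :
    Congr hN ℓ := by
  intro y
  set yF : modularFunctionFieldBar N := ((y : gO hN) : modularFunctionFieldBar N) with hyF
  have hy0 : yF ≠ 0 := by
    intro h0
    have : (y : gO hN) = 0 := Subtype.ext h0
    exact y.ne_zero this
  have hy0' : (yF : LaurentSeries Qb) ≠ 0 := fun h0 => hy0 (Subtype.ext h0)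
  obtain ⟨c, a, b, hc0, ha, hb, ha0, hb0, hrel⟩ := hq yF yF.2 hy0'
  -- `c` lies in `A` and has nonzero reduction
  set aF : modularFunctionFieldBar N := ⟨iota A a, ha⟩ with haF
  set bF : modularFunctionFieldBar N := ⟨iota A b, hb⟩ with hbF
  have haO : aF ∈ gO hN := integral_mem_gO hN ha
  have hbO : bF ∈ gO hN := integral_mem_gO hN hb
  have hau : IsUnit (⟨aF, haO⟩ : gO hN) := by
    rw [isUnit_iff_gRed_ne_zero, gRed_integral hN ha]; exact ha0
  have hrelF : yF * bF = algebraMap Qb (modularFunctionFieldBar N) c * aF := Subtype.ext hrel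
  have hcO : algebraMap Qb (modularFunctionFieldBar N) c ∈ gO hN := by
    have e : algebraMap Qb (modularFunctionFieldBar N) c =
        (((y : gO hN) * ⟨bF, hbO⟩ * ((hau.unit⁻¹ : (gO hN)ˣ) : gO hN) : gO hN) :
          modularFunctionFieldBar N) := by
      have e1 : (((hau.unit⁻¹ : (gO hN)ˣ) : gO hN) : modularFunctionFieldBar N) = aF⁻¹ := by
        rw [coe_units_inv, hau.unit_spec]
      have haF0 : aF ≠ 0 := fun h0 =>
        iota_ne_zero_of_pi_ne_zero π ha0 (congrArg Subtype.val h0)
      show _ = yF * bF * _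
      rw [e1, hrelF, mul_assoc, mul_inv_cancel₀ haF0, mul_one]
    rw [e]; exact Subtype.mem _
  have hcA : c ∈ A := (algebraMap_mem_gO_iff hN c).mp hcO
  set a' : LaurentSeries A := cA A ⟨c, hcA⟩ * a with ha'
  have hia' : iota A a' = algebraMap Qb (LaurentSeries Qb) c * iota A a := by
    rw [ha', map_mul, iota_cA]
  have ha'mem : iota A a' ∈ modularFunctionFieldBar N := by
    rw [hia']
    exact mul_mem ((modularFunctionFieldBar N).algebraMap_mem c) ha
  have hrel' : (yF : LaurentSeries Qb) * iota A b = iota A a' := by rw [hia']; exact hrel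
  have hredy : gRed hN y = pi π a' / pi π b := gRed_eq hN y hb0 hrel'
  have ha'0 : pi π a' ≠ 0 := by
    intro h0
    have := (isUnit_iff_gRed_ne_zero hN _).mp y.isUnit
    rw [hredy, h0, zero_div] at this
    exact this rfl
  set a'F : modularFunctionFieldBar N := ⟨iota A a', ha'mem⟩ with ha'F
  have hrelF' : yF * bF = a'F := Subtype.ext hrel'
  obtain ⟨za, hza, hzared⟩ := hc a' ha'mem
  obtain ⟨zb, hzb, hzbred⟩ := hc b hb
  have hFr0 : ∀ z : LaurentSeries k, z ≠ 0 → coeffMap (frobenius k ℓ) z ≠ 0 := fun z hz h0 =>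
    hz (coeffMap_injective _ (frobenius k ℓ).injective (by rw [h0, map_zero]))
  have hqE0 : ∀ z : LaurentSeries k, z ≠ 0 → qExpand k ℓ z ≠ 0 := fun z hz h0 =>
    hz (qExpand_injective ℓ (by rw [h0, map_zero]))
  have hzb0 : pi π zb ≠ 0 := by
    rw [hzbred]; exact mul_ne_zero (hqE0 _ hb0) (hFr0 _ hb0)
  set n : modularFunctionFieldBar N :=
    normAlong (heckeAlphaBar Qb N ℓ) (heckeBetaBar Qb N ℓ yF) with hn
  have hnrel : (n : LaurentSeries Qb) * iota A zb = iota A za := by
    rw [hza, hzb, ← hbF, ← ha'F, ← hrelF', map_mul, normAlong_mul]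
    rfl
  have hnO : n ∈ gO hN := ⟨za, zb, hzb0, hnrel⟩
  refine ⟨⟨n, hnO⟩, rfl, ?_⟩
  rw [gRed_eq hN ⟨n, hnO⟩ hzb0 hnrel, hzared, hzbred, hredy, map_div₀, map_div₀,
    div_mul_div_comm]

/-- **Kronecker's congruence at all places of good reduction.** -/
theorem congrAll (N : ℕ) [NeZero N] : CongrAll N := by
  intro ℓ _ _ hℓN A hA
  haveI := charP_residueField A hA
  refine congr_of_integral (gaussNormBar A N hA hℓN) ℓ ?_ ?_
  · intro f hf hf0
    exact exists_integral_quotient (IsLocalRing.residue A) IsLocalRing.residue_surjective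
      (card_Q_pos N) (exists_isCoreExt N ℓ hℓN).choose_spec f hf hf0
  · intro y₀ hy
    exact ES.norm_congruence N ℓ Fact.out hℓN A (IsLocalRing.residue A) y₀ hy

end Fermat.Agent.RED.TorsES
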