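import Fermat.Agent.RED.Gauss.Field
import Fermat.Prelude.Def_AlgebraicCurve_Correspondence
import Fermat.Prelude.Def_ModularCurve_X0
import Fermat.Prelude.Def_EllipticCurve_FrobeniusTrace

/-!
# RED / TorsES : abstract part

* semilinear equivariance of the big Gauss ring `bigO π ⊆ L((q))` and of its reduction map under
  coefficientwise ring endomorphisms preserving `A`;
* a small calculus for the relation `m • D = div f` (`IsDiv m D f`) in the Prelude language:
  products, inverses, powers, semilinear automorphisms, correspondences.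
-/

set_option autoImplicit false
set_option linter.style.haveILetI false
set_option linter.unusedSectionVars false
noncomputable section

open ModularCurve AlgebraicCurve

namespace Fermat.Agent.RED.TorsES

open Fermat.Agent.RED.Gauss

section BigO

variable {L : Type*} [Field L] {A : ValuationSubring L} {k : Type*} [Field k] (π : A →+* k)

theorem coeffMap_iota (φ : L →+* L) (s : A →+* A) (hs : ∀ a : A, ((s a : A) : L) = φ a)
    (a : LaurentSeries A) : coeffMap φ (iota A a) = iota A (coeffMap s a) := by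
  ext n
  simp [iota, hs]

theorem pi_coeffMap (s : A →+* A) (sb : k →+* k) (hsb : ∀ a : A, π (s a) = sb (π a))
    (a : LaurentSeries A) : pi π (coeffMap s a) = coeffMap sb (pi π a) := by
  ext n
  simp [pi, hsb]

theorem coeffMap_injective {R S : Type*} [CommRing R] [CommRing S] (f : R →+* S)
    (hf : Function.Injective f) : Function.Injective (coeffMap f) := by
  intro x y h
  ext n
  have := congrArg (fun z => z.coeff n) h
  exact hf (by simpa using this)

variable {π}

/-- A coefficientwise endomorphism preserving `A` and compatible with `π` preserves `bigO`. -/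
theorem coeffMap_mem_bigO (φ : L →+* L) (s : A →+* A) (sb : k →+* k)
    (hs : ∀ a : A, ((s a : A) : L) = φ a) (hsb : ∀ a : A, π (s a) = sb (π a))
    {y : LaurentSeries L} (hy : y ∈ bigO π) : coeffMap φ y ∈ bigO π := by
  obtain ⟨a, b, hb, h⟩ := hy
  refine ⟨coeffMap s a, coeffMap s b, ?_, ?_⟩
  · rw [pi_coeffMap π s sb hsb]
    intro h0
    exact hb (coeffMap_injective sb sb.injective (by rw [h0, map_zero]))
  · rw [← coeffMap_iota φ s hs, ← coeffMap_iota φ s hs, ← map_mul, h]

/-- ... and commutes with the reduction map. -/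
theorem bigRed_coeffMap (φ : L →+* L) (s : A →+* A) (sb : k →+* k)
    (hs : ∀ a : A, ((s a : A) : L) = φ a) (hsb : ∀ a : A, π (s a) = sb (π a))
    {y : LaurentSeries L} (hy : y ∈ bigO π) :
    bigRed π ⟨coeffMap φ y, coeffMap_mem_bigO φ s sb hs hsb hy⟩ =
      coeffMap sb (bigRed π ⟨y, hy⟩) := by
  have hy' := hy
  obtain ⟨a, b, hb, h⟩ := hy'
  have hb' : pi π (coeffMap s b) ≠ 0 := by
    rw [pi_coeffMap π s sb hsb]
    intro h0
    exact hb (coeffMap_injective sb sb.injective (by rw [h0, map_zero]))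
  have h' : coeffMap φ y * iota A (coeffMap s b) = iota A (coeffMap s a) := by
    rw [← coeffMap_iota φ s hs, ← coeffMap_iota φ s hs, ← map_mul, h]
  have e1 := bigRed_eq π ⟨coeffMap φ y, coeffMap_mem_bigO φ s sb hs hsb hy⟩ hb' h'
  have e2 := bigRed_eq π ⟨y, hy⟩ hb h
  rw [e1, e2, pi_coeffMap π s sb hsb, pi_coeffMap π s sb hsb, map_div₀]

end BigO

section Div

variable {K F : Type*} [Field K] [Field F] [Algebra K F]

theorem ord_algebraMap (P : Place K F) (c : K) : P.ord (algebraMap K F c) = 0 := by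
  rcases eq_or_ne c 0 with rfl | hc
  · simp
  have h1 : (algebraMap K P.toValuationSubring c) * (algebraMap K P.toValuationSubring c⁻¹) = 1 := by
    rw [← map_mul, mul_inv_cancel₀ hc, map_one]
  have hu : IsUnit (algebraMap K P.toValuationSubring c) := IsUnit.of_mul_eq_one _ h1
  have := P.ord_coe_unit hu.unit
  rwa [IsUnit.unit_spec, Place.coe_algebraMap] at this

/-- `m • D = div f` -/
def IsDiv (m : ℤ) (D : Divisor K F) (f : F) : Prop :=
  f ≠ 0 ∧ ∀ P : Place K F, m * D P = P.ord f

namespace IsDiv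

variable {m : ℤ} {D E : Divisor K F} {f g : F}

theorem mul (hf : IsDiv m D f) (hg : IsDiv m E g) : IsDiv m (D + E) (f * g) :=
  ⟨mul_ne_zero hf.1 hg.1, fun P => by
    rw [Finsupp.add_apply, mul_add, hf.2 P, hg.2 P, P.ord_mul hf.1 hg.1]⟩

theorem inv (hf : IsDiv m D f) : IsDiv m (-D) f⁻¹ :=
  ⟨inv_ne_zero hf.1, fun P => by rw [Finsupp.neg_apply, mul_neg, hf.2 P, P.ord_inv]⟩

theorem pow (hf : IsDiv m D f) (n : ℕ) : IsDiv m (n • D) (f ^ n) :=
  ⟨pow_ne_zero _ hf.1, fun P => by
    rw [Finsupp.smul_apply, ← zpow_natCast, P.ord_zpow, ← hf.2 P, nsmul_eq_mul]; ring⟩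

theorem const_mul (hf : IsDiv m D f) {c : K} (hc : c ≠ 0) : IsDiv m D (algebraMap K F c * f) := by
  have hc' : algebraMap K F c ≠ 0 := by rwa [Ne, map_eq_zero]
  exact ⟨mul_ne_zero hc' hf.1, fun P => by
    rw [P.ord_mul hc' hf.1, ord_algebraMap, zero_add, hf.2 P]⟩

theorem of_const_mul {c : K} (hf : IsDiv m D (algebraMap K F c * f)) : IsDiv m D f := by
  have hc' : algebraMap K F c ≠ 0 := left_ne_zero_of_mul hf.1
  have hf0 : f ≠ 0 := right_ne_zero_of_mul hf.1
  exact ⟨hf0, fun P => by rw [hf.2 P, P.ord_mul hc' hf0, ord_algebraMap, zero_add]⟩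

theorem smul (hf : IsDiv m D f) (s : SemilinearAut K F) : IsDiv m (s • D) (s • f) := by
  refine ⟨by simpa using hf.1, fun P => ?_⟩
  rw [SemilinearAut.divisor_smul_apply, hf.2 (s⁻¹ • P)]
  have h := SemilinearAut.ord_smul s (s⁻¹ • P) f
  rw [smul_inv_smul] at h
  exact h.symm

end IsDiv

theorem mk_sub' (D E : Divisor.degZero (K := K) (F := F)) :
    Pic0.mk (D - E) = Pic0.mk D - Pic0.mk E := rfl

theorem mk_nsmul' (n : ℕ) (D : Divisor.degZero (K := K) (F := F)) :
    Pic0.mk (n • D) = n • Pic0.mk D := rfl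

theorem mk_eq_zero_iff (D : Divisor.degZero (K := K) (F := F)) :
    Pic0.mk D = 0 ↔ (D : Divisor K F).IsPrincipal := by
  rw [Pic0.mk, QuotientAddGroup.eq_zero_iff, AddSubgroup.mem_addSubgroupOf]
  rfl

theorem exists_isDiv_of_nsmul_eq_zero {m : ℕ} {D : Divisor.degZero (K := K) (F := F)}
    (h : m • Pic0.mk D = 0) : ∃ f : F, IsDiv (m : ℤ) (D : Divisor K F) f := by
  rw [← mk_nsmul', mk_eq_zero_iff] at h
  obtain ⟨f, hf, hD⟩ := h
  refine ⟨f, hf, fun P => ?_⟩
  rw [← hD P]
  simp

theorem mk_eq_zero_of_isDiv {m : ℤ} (hm : m ≠ 0) {D : Divisor.degZero (K := K) (F := F)} {g : F}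
    (hg : IsDiv m (D : Divisor K F) g)
    (hK : ∃ h : F, h ≠ 0 ∧ ∀ P : Place K F, P.ord g = m * P.ord h) : Pic0.mk D = 0 := by
  obtain ⟨h, hh, hP⟩ := hK
  rw [mk_eq_zero_iff]
  refine ⟨h, hh, fun P => ?_⟩
  have := hg.2 P
  rw [hP P] at this
  exact mul_left_cancel₀ hm this

end Div

section Corr

variable {K F F' : Type*} [Field K] [Field F] [Field F'] [Algebra K F] [Algebra K F']

/-- the norm along an embedding of fields -/
def normAlong (ψ : F →ₐ[K] F') (z : F') : F :=
  letI := algebraAlong ψ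
  Algebra.norm F z

variable [HasPrincipalDivisors K F']

theorem IsDiv.pullbackAlong {m : ℤ} {D : Divisor K F} {f : F} (hf : IsDiv m D f)
    (φ : F →ₐ[K] F') (hφ : φ.toRingHom.IsIntegral) :
    IsDiv m (Divisor.pullbackAlong φ hφ D) (φ f) := by
  refine ⟨by simpa using hf.1, fun w => ?_⟩
  rw [Divisor.pullbackAlong_apply, Place.ord_restrictAlong φ hφ, ← hf.2]
  ring

theorem IsDiv.pushforwardAlong {m : ℤ} {D : Divisor K F'} {z : F'} (hz : IsDiv m D z)
    (ψ : F →ₐ[K] F') (hψ : ψ.toRingHom.IsIntegral) (hfin : FiniteAlong K ψ)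
    (hN : NormFormulaAlong K ψ hfin) :
    IsDiv m (Divisor.pushforwardAlong ψ hψ D) (normAlong ψ z) := by
  letI := algebraAlong ψ
  haveI := isScalarTower_along ψ
  haveI := isIntegral_along ψ hψ
  haveI : Module.Finite F F' := hfin
  refine ⟨Algebra.norm_ne_zero_iff.mpr hz.1, fun v => ?_⟩
  have h1 : ∀ w : Place K F', (m • D) w = w.ord z := fun w => by
    rw [Finsupp.smul_apply, smul_eq_mul, hz.2 w]
  have h2 := hN z hz.1 (m • D) h1 v
  have h3 : Divisor.pushforward F (m • D) = m • Divisor.pushforward F D := map_zsmul _ _ _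
  rw [h3, Finsupp.smul_apply, smul_eq_mul] at h2
  exact h2

theorem IsDiv.correspondence {m : ℤ} {D : Divisor K F} {f : F} (hf : IsDiv m D f)
    (φ ψ : F →ₐ[K] F') (hφ : φ.toRingHom.IsIntegral) (hψ : ψ.toRingHom.IsIntegral)
    (hfin : FiniteAlong K ψ) (hN : NormFormulaAlong K ψ hfin) :
    IsDiv m (Divisor.correspondence φ ψ hφ hψ D) (normAlong ψ (φ f)) :=
  (hf.pullbackAlong φ hφ).pushforwardAlong ψ hψ hfin hN

end Corr

section Frob

theorem coe_pow_char (k : Type*) [Field k] (ℓ : ℕ) [NeZero ℓ] [hp : Fact ℓ.Prime] [CharP k ℓ]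
    (f : PowerSeries k) :
    ((f : PowerSeries k) : LaurentSeries k) ^ ℓ =
      qExpand k ℓ (coeffMap (frobenius k ℓ) (f : LaurentSeries k)) := by
  have h1 : f ^ ℓ = (PowerSeries.expand ℓ hp.out.ne_zero f).map (frobenius k ℓ) :=
    (MvPowerSeries.map_frobenius_expand (σ := Unit) ℓ hp.out.ne_zero (f := f)).symm
  rw [← PowerSeries.coe_pow, h1]
  ext n
  by_cases hn : (ℓ : ℤ) ∣ n
  · obtain ⟨m, rfl⟩ := hn
    rw [qExpand_coeff_mul, coeffMap_coeff, PowerSeries.coeff_coe, PowerSeries.coeff_coe]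
    have hl : (0 : ℤ) < ℓ := by exact_mod_cast hp.out.pos
    by_cases hm : m < 0
    · rw [if_pos hm, if_pos (mul_neg_of_pos_of_neg hl hm), map_zero]
    · rw [if_neg hm, if_neg (by push Not at hm ⊢; positivity), PowerSeries.coeff_map,
        Int.natAbs_mul, Int.natAbs_natCast, PowerSeries.coeff_expand_mul]
  · rw [qExpand_coeff_of_not_dvd _ _ hn, PowerSeries.coeff_coe]
    split_ifs with h0
    · rfl
    · rw [PowerSeries.coeff_map, PowerSeries.coeff_expand_of_not_dvd, map_zero]
      intro hd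
      apply hn
      rw [← Int.natCast_dvd_natCast, Int.natCast_natAbs] at hd
      exact (dvd_abs _ _).mp hd

/-- In characteristic `ℓ`: `u ^ ℓ = (Frob u)(q ^ ℓ)` for Laurent series. -/
theorem pow_char_eq (k : Type*) [Field k] (ℓ : ℕ) [NeZero ℓ] [hp : Fact ℓ.Prime] [CharP k ℓ]
    (u : LaurentSeries k) :
    u ^ ℓ = qExpand k ℓ (coeffMap (frobenius k ℓ) u) := by
  haveI : CharP (LaurentSeries k) ℓ :=
    charP_of_injective_algebraMap (algebraMap k (LaurentSeries k)).injective ℓ
  have key : frobenius (LaurentSeries k) ℓ = (qExpand k ℓ).comp (coeffMap (frobenius k ℓ)) := by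
    refine IsLocalization.ringHom_ext (Submonoid.powers (PowerSeries.X : PowerSeries k))
      (RingHom.ext fun f => ?_)
    exact coe_pow_char k ℓ f
  exact congrArg (fun φ => φ u) key


end Frob

section Decomp

variable {K L : Type*} [Field K] [Field L] [Algebra K L] (A : ValuationSubring L)
variable {k : Type*} [Field k] {π : A →+* k}

/-- restriction to `A` of an element of the decomposition group -/
def resA (σ : L ≃ₐ[K] L) (hσ : σ ∈ A.decompositionSubgroup K) : A →+* A :=
  MulSemiringAction.toRingHom (A.decompositionSubgroup K) A ⟨σ, hσ⟩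

theorem coe_resA (σ : L ≃ₐ[K] L) (hσ : σ ∈ A.decompositionSubgroup K) (a : A) :
    ((resA A σ hσ a : A) : L) = ((σ : L ≃+* L) : L →+* L) a := rfl

variable {A}

theorem pi_eq_of_residue_eq (hπ : Function.Surjective π) {a b : A}
    (h : IsLocalRing.residue A a = IsLocalRing.residue A b) : π a = π b := by
  rw [← sub_eq_zero, ← map_sub] at h ⊢
  rw [IsLocalRing.residue_eq_zero_iff] at h
  exact pi_eq_zero_of_not_isUnit hπ h

theorem pi_resA_of_inertia (hπ : Function.Surjective π) (τ : A.decompositionSubgroup K)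
    (hτ : τ ∈ A.inertiaSubgroup K) (a : A) :
    π (resA A (τ : L ≃ₐ[K] L) τ.2 a) = RingHom.id k (π a) := by
  refine pi_eq_of_residue_eq hπ ?_
  have h1 : MulSemiringAction.toRingAut (A.decompositionSubgroup K) (IsLocalRing.ResidueField A) τ
      = 1 := hτ
  have h2 := congrArg (fun φ => φ (IsLocalRing.residue A a)) h1
  exact h2

theorem pi_resA_of_frobenius (hπ : Function.Surjective π) {ℓ : ℕ} [Fact ℓ.Prime] [CharP k ℓ]
    {σ : L ≃ₐ[K] L} (hσ : A.IsFrobeniusAt σ ℓ) (a : A) :
    π (resA A σ hσ.mem_decompositionSubgroup a) = frobenius k ℓ (π a) := by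
  rw [frobenius_def, ← map_pow]
  refine pi_eq_of_residue_eq hπ ?_
  rw [map_pow]
  exact hσ.smul_residue_eq (IsLocalRing.residue A a)

end Decomp

end Fermat.Agent.RED.TorsES
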