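import Mathlib
import Fermat.Prelude.Def_AlgebraicCurve_DivisorClassGroup
import Fermat.Agent.S24.FF.Basic

/-!
Abstract injectivity of the reduction map on prime-to-residue-characteristic torsion
(first order computation in residue discs).
-/

set_option autoImplicit false

namespace Fermat.Agent.RED

open AlgebraicCurve Fermat.Agent.S24

noncomputable section

section Fibre

variable {α β : Type*}

open Classical in
theorem mapDomain_apply_eq_sum (r : α → β) (D : α →₀ ℤ) (Q : β) :
    D.mapDomain r Q = ∑ P ∈ D.support.filter (fun P => r P = Q), D P := by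
  rw [Finsupp.mapDomain, Finsupp.sum_apply, Finsupp.sum, Finset.sum_filter]
  refine Finset.sum_congr rfl fun P _ => ?_
  rw [Finsupp.single_apply]

theorem mapDomain_apply_nonneg (r : α → β) (D : α →₀ ℤ) (Q : β)
    (h : ∀ P, r P = Q → 0 ≤ D P) : 0 ≤ D.mapDomain r Q := by
  classical
  rw [mapDomain_apply_eq_sum]
  exact Finset.sum_nonneg fun P hP => h P (Finset.mem_filter.mp hP).2

theorem mapDomain_apply_eq_zero (r : α → β) (D : α →₀ ℤ) (Q : β)
    (h : ∀ P, r P = Q → D P = 0) : D.mapDomain r Q = 0 := by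
  classical
  rw [mapDomain_apply_eq_sum]
  exact Finset.sum_eq_zero fun P hP => h P (Finset.mem_filter.mp hP).2

theorem le_mapDomain_apply (r : α → β) (D : α →₀ ℤ) (Q : β)
    (h : ∀ P, r P = Q → 0 ≤ D P) (P0 : α) (hP0 : r P0 = Q) : D P0 ≤ D.mapDomain r Q := by
  classical
  rw [mapDomain_apply_eq_sum]
  by_cases h0 : D P0 = 0
  · rw [h0]
    exact Finset.sum_nonneg fun P hP => h P (Finset.mem_filter.mp hP).2
  · exact Finset.single_le_sum (f := fun P => D P)
      (fun P hP => h P (Finset.mem_filter.mp hP).2)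
      (Finset.mem_filter.mpr ⟨Finsupp.mem_support_iff.mpr h0, hP0⟩)

/-- If the fibre sum of a nonnegative function is `1`, it is a point mass. -/
theorem exists_unique_of_mapDomain_apply_eq_one (r : α → β) (D : α →₀ ℤ) (Q : β)
    (h : ∀ P, r P = Q → 0 ≤ D P) (h1 : D.mapDomain r Q = 1) :
    ∃ P0, r P0 = Q ∧ D P0 = 1 ∧ ∀ P, r P = Q → P ≠ P0 → D P = 0 := by
  classical
  rw [mapDomain_apply_eq_sum] at h1
  have hne : ∃ P0 ∈ D.support.filter (fun P => r P = Q), 0 < D P0 := by
    by_contra hcon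
    push Not at hcon
    have := Finset.sum_nonpos hcon
    omega
  obtain ⟨P0, hP0, hpos⟩ := hne
  have hP0Q := (Finset.mem_filter.mp hP0).2
  have hsplit := Finset.add_sum_erase _ (fun P => D P) hP0
  have hrest : 0 ≤ ∑ P ∈ (D.support.filter (fun P => r P = Q)).erase P0, D P :=
    Finset.sum_nonneg fun P hP => h P (Finset.mem_filter.mp (Finset.mem_of_mem_erase hP)).2
  have hD1 : D P0 = 1 := by omega
  have hrest0 : ∑ P ∈ (D.support.filter (fun P => r P = Q)).erase P0, D P = 0 := by
    omega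
  refine ⟨P0, hP0Q, hD1, fun P hP hne => ?_⟩
  by_contra hDP
  have hmem : P ∈ (D.support.filter (fun P => r P = Q)).erase P0 :=
    Finset.mem_erase.mpr ⟨hne, Finset.mem_filter.mpr ⟨Finsupp.mem_support_iff.mpr hDP, hP⟩⟩
  have := (Finset.sum_eq_zero_iff_of_nonneg
    (fun P hP => h P (Finset.mem_filter.mp (Finset.mem_of_mem_erase hP)).2)).mp hrest0 P hmem
  exact hDP this

theorem eq_zero_of_mapDomain_apply_eq_zero (r : α → β) (D : α →₀ ℤ) (Q : β)
    (h : ∀ P, r P = Q → 0 ≤ D P) (h0 : D.mapDomain r Q = 0) (P : α) (hP : r P = Q) : D P = 0 :=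
  le_antisymm (h0 ▸ le_mapDomain_apply r D Q h P hP) (h P hP)

open Classical in
theorem sum_single_apply_of_injective {ι : Type*} [Fintype ι] (q : ι → β)
    (hq : Function.Injective q) (Q : β) :
    (∑ i, Finsupp.single (q i) (1 : ℤ)) Q = if Q ∈ Set.range q then 1 else 0 := by
  rw [Finsupp.finsetSum_apply]
  simp only [Finsupp.single_apply]
  split_ifs with hQ
  · obtain ⟨i0, rfl⟩ := hQ
    rw [Finset.sum_eq_single i0]
    · simp
    · intro i _ hi
      rw [if_neg fun hh => hi (hq hh)]
    · intro hi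
      exact absurd (Finset.mem_univ _) hi
  · exact Finset.sum_eq_zero fun i _ => if_neg fun hh => hQ ⟨i, hh⟩

end Fibre

section Ord

variable {K E : Type*} [Field K] [Field E] [Algebra K E] (Q : Place K E)

theorem ord_add_ge' {n : ℤ} (hn : n ≤ 0) {x y : E} (hx : n ≤ Q.ord x) (hy : n ≤ Q.ord y) :
    n ≤ Q.ord (x + y) := by
  rcases eq_or_ne x 0 with rfl | hx0
  · simpa using hy
  rcases eq_or_ne y 0 with rfl | hy0
  · simpa using hx
  rcases eq_or_ne (x + y) 0 with h0 | h0
  · rw [h0]; simpa using hn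
  · exact le_trans (le_min hx hy) (S24.Place.ord_add_ge Q hx0 hy0 h0)

theorem ord_sub_const_nonneg {x : E} (hx : 0 ≤ Q.ord x) (a : K) :
    0 ≤ Q.ord (x - algebraMap K E a) := by
  rw [sub_eq_add_neg]
  refine ord_add_ge' Q le_rfl hx ?_
  rw [S24.Place.ord_neg, S24.Place.ord_algebraMap]

theorem ord_div {x y : E} (hx : x ≠ 0) (hy : y ≠ 0) : Q.ord (x / y) = Q.ord x - Q.ord y := by
  rw [div_eq_mul_inv, Q.ord_mul hx (inv_ne_zero hy), Q.ord_inv]
  ring

theorem ord_of_mem_range {x : E} (hx : x ∈ Set.range (algebraMap K E)) : Q.ord x = 0 := by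
  obtain ⟨a, rfl⟩ := hx
  exact S24.Place.ord_algebraMap Q a

theorem ord_mul_const (x : E) {c : K} (hc : c ≠ 0) :
    Q.ord (x * algebraMap K E c) = Q.ord x := by
  rcases eq_or_ne x 0 with rfl | hx
  · simp
  · rw [Q.ord_mul hx (by simpa using hc), S24.Place.ord_algebraMap, add_zero]

theorem ord_mul_nonneg {x y : E} (hx : 0 ≤ Q.ord x) (hy : 0 ≤ Q.ord y) : 0 ≤ Q.ord (x * y) := by
  rcases eq_or_ne x 0 with rfl | hx0
  · simp
  rcases eq_or_ne y 0 with rfl | hy0
  · simp
  rw [Q.ord_mul hx0 hy0]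
  exact add_nonneg hx hy

theorem ne_zero_of_ord_ne_zero {x : E} (hx : Q.ord x ≠ 0) : x ≠ 0 := by
  rintro rfl
  simp at hx

end Ord

theorem exists_one_sub_pow {R : Type*} [CommRing R] (s : R) (m : ℕ) :
    ∃ p : R, (1 - s) ^ m = 1 - m * s + s ^ 2 * p := by
  induction m with
  | zero => exact ⟨0, by simp⟩
  | succ m ih =>
    obtain ⟨p, hp⟩ := ih
    refine ⟨m + p - s * p, ?_⟩
    rw [pow_succ, hp]
    push_cast
    ring

section Main

variable {L F k Fb : Type*} [Field L] [Field F] [Algebra L F] [Field k] [Field Fb] [Algebra k Fb]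

/-- Reduction data for a valued function field. -/
structure IsReduction (O : ValuationSubring F) (red : O →+* Fb)
    (r : Place L F → Place k Fb) : Prop where
  ker : ∀ x : O, red x = 0 ↔ O.valuation (x : F) < 1
  const : ∀ (c : L) (h : algebraMap L F c ∈ O), red ⟨_, h⟩ ∈ Set.range (algebraMap k Fb)
  scale : ∀ f : F, f ≠ 0 → ∃ c : L, O.valuation f = O.valuation (algebraMap L F c)
  div_red : ∀ x : O, O.valuation (x : F) = 1 → ∀ D : Divisor L F,
    (∀ P, D P = P.ord (x : F)) → ∀ Q, D.mapDomain r Q = Q.ord (red x)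
  exists_div : ∀ f : F, f ≠ 0 → ∃ D : Divisor L F, ∀ P, D P = P.ord f
  exists_value : ∀ (P : Place L F) (f : F), f ∈ P.toValuationSubring →
    ∃ c : L, f = algebraMap L F c ∨ 0 < P.ord (f - algebraMap L F c)

variable (O : ValuationSubring F) (red : O →+* Fb)

open Classical in
/-- The reduction map extended by zero. -/
def rd (f : F) : Fb := if h : f ∈ O then red ⟨f, h⟩ else 0

variable {O red}

theorem rd_of_mem {f : F} (h : f ∈ O) : rd O red f = red ⟨f, h⟩ := dif_pos h

theorem mem_of_val_le {f : F} (h : O.valuation f ≤ 1) : f ∈ O :=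
  (O.valuation_le_one_iff f).mp h

theorem val_le_of_mem {f : F} (h : f ∈ O) : O.valuation f ≤ 1 :=
  (O.valuation_le_one_iff f).mpr h

theorem rd_add {f g : F} (hf : f ∈ O) (hg : g ∈ O) :
    rd O red (f + g) = rd O red f + rd O red g := by
  rw [rd_of_mem hf, rd_of_mem hg, rd_of_mem (O.add_mem _ _ hf hg), ← map_add]
  rfl

theorem rd_mul {f g : F} (hf : f ∈ O) (hg : g ∈ O) :
    rd O red (f * g) = rd O red f * rd O red g := by
  rw [rd_of_mem hf, rd_of_mem hg, rd_of_mem (O.mul_mem _ _ hf hg), ← map_mul]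
  rfl

theorem rd_neg {f : F} (hf : f ∈ O) : rd O red (-f) = - rd O red f := by
  rw [rd_of_mem hf, rd_of_mem (O.neg_mem _ hf), ← map_neg]
  rfl

theorem rd_sub {f g : F} (hf : f ∈ O) (hg : g ∈ O) :
    rd O red (f - g) = rd O red f - rd O red g := by
  rw [sub_eq_add_neg, rd_add hf (O.neg_mem _ hg), rd_neg hg, sub_eq_add_neg]

theorem rd_one : rd O red (1 : F) = 1 := by
  rw [rd_of_mem O.one_mem, ← map_one red]
  rfl

theorem rd_pow {f : F} (hf : f ∈ O) (n : ℕ) : rd O red (f ^ n) = rd O red f ^ n := by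
  rw [rd_of_mem hf, rd_of_mem (O.pow_mem hf n), ← map_pow]
  rfl

variable {r : Place L F → Place k Fb}

namespace IsReduction

variable (h : IsReduction O red r)
include h

theorem rd_eq_zero_iff {f : F} (hf : f ∈ O) : rd O red f = 0 ↔ O.valuation f < 1 := by
  rw [rd_of_mem hf]
  exact h.ker ⟨f, hf⟩

theorem rd_eq_zero {f : F} (hf : O.valuation f < 1) : rd O red f = 0 :=
  (h.rd_eq_zero_iff (mem_of_val_le hf.le)).mpr hf

theorem rd_ne_zero {f : F} (hf : O.valuation f = 1) : rd O red f ≠ 0 := by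
  rw [Ne, h.rd_eq_zero_iff (mem_of_val_le hf.le), hf]
  exact lt_irrefl _

theorem val_eq_one_of_rd_ne_zero {f : F} (hf : rd O red f ≠ 0) : O.valuation f = 1 := by
  by_cases hm : f ∈ O
  · rcases (val_le_of_mem hm).lt_or_eq with hlt | heq
    · exact absurd (h.rd_eq_zero hlt) hf
    · exact heq
  · exact absurd (dif_neg hm) hf

theorem rd_const (c : L) : rd O red (algebraMap L F c) ∈ Set.range (algebraMap k Fb) := by
  by_cases hm : algebraMap L F c ∈ O
  · rw [rd_of_mem hm]
    exact h.const c hm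
  · refine ⟨0, ?_⟩
    rw [map_zero]
    unfold rd
    rw [dif_neg hm]

theorem rd_div {f g : F} (hf : f ∈ O) (hg : O.valuation g = 1) :
    rd O red (f / g) = rd O red f / rd O red g := by
  have hg0 : g ≠ 0 := by
    rintro rfl
    simp at hg
  have hgi : g⁻¹ ∈ O := mem_of_val_le (by rw [map_inv₀, hg, inv_one])
  have hgm : g ∈ O := mem_of_val_le hg.le
  rw [eq_div_iff (h.rd_ne_zero hg), ← rd_mul (by rw [div_eq_mul_inv]; exact O.mul_mem _ _ hf hgi) hgm,
    div_mul_cancel₀ _ hg0]

/-- (P1) for elements of `F`. -/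
theorem ord_rd {f : F} (hf : O.valuation f = 1) (D : Divisor L F) (hD : ∀ P, D P = P.ord f)
    (Q : Place k Fb) : Q.ord (rd O red f) = D.mapDomain r Q := by
  rw [rd_of_mem (mem_of_val_le hf.le)]
  exact (h.div_red ⟨f, mem_of_val_le hf.le⟩ hf D hD Q).symm

theorem ne_zero_of_val_eq_one {f : F} (hf : O.valuation f = 1) : f ≠ 0 := by
  rintro rfl
  simp at hf

/-- (A) -/
theorem ord_rd_nonneg {f : F} (hf : f ∈ O) (Q : Place k Fb)
    (hpole : ∀ P, r P = Q → 0 ≤ P.ord f) : 0 ≤ Q.ord (rd O red f) := by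
  rcases (val_le_of_mem hf).lt_or_eq with hlt | heq
  · rw [h.rd_eq_zero hlt]; simp
  · obtain ⟨D, hD⟩ := h.exists_div f (h.ne_zero_of_val_eq_one heq)
    rw [h.ord_rd heq D hD]
    exact mapDomain_apply_nonneg r D Q fun P hP => by rw [hD]; exact hpole P hP

theorem ord_rd_pos {f : F} (hf : O.valuation f = 1) (Q : Place k Fb)
    (hpole : ∀ P, r P = Q → 0 ≤ P.ord f) (P0 : Place L F) (hP0 : r P0 = Q)
    (hpos : 0 < P0.ord f) : 0 < Q.ord (rd O red f) := by
  obtain ⟨D, hD⟩ := h.exists_div f (h.ne_zero_of_val_eq_one hf)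
  rw [h.ord_rd hf D hD]
  refine lt_of_lt_of_le ?_ (le_mapDomain_apply r D Q (fun P hP => by rw [hD]; exact hpole P hP)
    P0 hP0)
  rw [hD]; exact hpos

theorem ord_rd_eq_zero {f : F} (hf : O.valuation f = 1) (Q : Place k Fb)
    (hz : ∀ P, r P = Q → P.ord f = 0) : Q.ord (rd O red f) = 0 := by
  obtain ⟨D, hD⟩ := h.exists_div f (h.ne_zero_of_val_eq_one hf)
  rw [h.ord_rd hf D hD]
  exact mapDomain_apply_eq_zero r D Q fun P hP => by rw [hD]; exact hz P hP

/-- (B), first half: the value of an integral function at a point where it is regular along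
the whole fibre is integral. -/
theorem val_value_le_one {f : F} (hf : f ∈ O) {Q : Place k Fb}
    (hreg : ∀ P, r P = Q → 0 ≤ P.ord f) {P : Place L F} (hP : r P = Q) {a : L}
    (ha : f = algebraMap L F a ∨ 0 < P.ord (f - algebraMap L F a)) :
    O.valuation (algebraMap L F a) ≤ 1 := by
  by_contra hlt
  push Not at hlt
  rcases ha with ha | ha
  · rw [← ha] at hlt
    exact absurd (val_le_of_mem hf) (not_le.mpr hlt)
  have ha0 : a ≠ 0 := by
    rintro rfl
    simp at hlt
  have haF : algebraMap L F a ≠ 0 := by simpa using ha0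
  set u : F := (f - algebraMap L F a) * algebraMap L F (-a⁻¹) with hu
  have hu' : u = 1 - f / algebraMap L F a := by
    rw [hu, map_neg, map_inv₀]
    field_simp
    ring
  have hfa : O.valuation (f / algebraMap L F a) < 1 := by
    rw [map_div₀, div_lt_one₀ (lt_trans zero_lt_one hlt)]
    exact lt_of_le_of_lt (val_le_of_mem hf) hlt
  have hvu : O.valuation u = 1 := by
    rw [hu']
    exact Valuation.map_one_sub_of_lt _ hfa
  have hrdu : rd O red u = 1 := by
    rw [hu', rd_sub O.one_mem (mem_of_val_le hfa.le), rd_one, h.rd_eq_zero hfa, sub_zero]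
  have hna : -a⁻¹ ≠ 0 := neg_ne_zero.mpr (inv_ne_zero ha0)
  have hpos := h.ord_rd_pos hvu Q (fun P' hP' => by
    rw [hu, ord_mul_const _ _ hna]
    exact ord_sub_const_nonneg _ (hreg P' hP') a) P hP (by rw [hu, ord_mul_const _ _ hna]; exact ha)
  rw [hrdu] at hpos
  simp at hpos

/-- (B), second half: evaluation commutes with reduction. -/
theorem rd_sub_value {f : F} (hf : f ∈ O) {Q : Place k Fb}
    (hreg : ∀ P, r P = Q → 0 ≤ P.ord f) {P : Place L F} (hP : r P = Q) {a : L}
    (ha : f = algebraMap L F a ∨ 0 < P.ord (f - algebraMap L F a)) :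
    rd O red f = rd O red (algebraMap L F a) ∨
      0 < Q.ord (rd O red f - rd O red (algebraMap L F a)) := by
  have hva := h.val_value_le_one hf hreg hP ha
  rcases ha with ha | ha
  · left; rw [← ha]
  have hmem : f - algebraMap L F a ∈ O := O.sub_mem hf (mem_of_val_le hva)
  rw [← rd_sub hf (mem_of_val_le hva)]
  rcases (val_le_of_mem hmem).lt_or_eq with hlt | heq
  · left
    have := h.rd_eq_zero hlt
    rw [rd_sub hf (mem_of_val_le hva)] at this
    exact sub_eq_zero.mp this
  · right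
    exact h.ord_rd_pos heq Q (fun P' hP' => ord_sub_const_nonneg _ (hreg P' hP') a) P hP ha

end IsReduction

/-- `T` is an integral function, regular along the fibre of `Q`, whose reduction is a local
parameter at `Q`. -/
structure IsLocalParam (O : ValuationSubring F) (red : O →+* Fb) (r : Place L F → Place k Fb)
    (Q : Place k Fb) (T : F) : Prop where
  mem : T ∈ O
  reg : ∀ P, r P = Q → 0 ≤ P.ord T
  ord : Q.ord (rd O red T) = 1

theorem IsLocalParam.exists_shift (h : IsReduction O red r) {Q : Place k Fb} {T : F}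
    (hT : IsLocalParam O red r Q T) {P : Place L F} (hP : r P = Q) :
    ∃ a : L, O.valuation (algebraMap L F a) < 1 ∧ P.ord (T - algebraMap L F a) = 1 ∧
      ∀ P', r P' = Q → P' ≠ P → P'.ord (T - algebraMap L F a) = 0 := by
  have hTP : T ∈ P.toValuationSubring := by
    have hT0 : T ≠ 0 := by
      rintro rfl
      have := hT.ord
      rw [rd_of_mem O.zero_mem] at this
      have h0 : (⟨0, O.zero_mem⟩ : O) = 0 := rfl
      rw [h0, map_zero] at this
      simp at this
    exact (S24.Place.mem_iff_ord_nonneg P hT0).mpr (hT.reg P hP)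
  obtain ⟨a, ha⟩ := h.exists_value P T hTP
  have hva := h.val_value_le_one hT.mem hT.reg hP ha
  have hrT0 : rd O red T ≠ 0 := ne_zero_of_ord_ne_zero Q (by rw [hT.ord]; norm_num)
  have hvT : O.valuation T = 1 := h.val_eq_one_of_rd_ne_zero hrT0
  -- the reduction of `a` vanishes
  have hra : rd O red (algebraMap L F a) = 0 := by
    by_contra hne
    obtain ⟨c, hc⟩ := h.rd_const a
    have hc0 : algebraMap k Fb c ≠ 0 := by rw [hc]; exact hne
    have hord : Q.ord (rd O red T - rd O red (algebraMap L F a)) = 0 := by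
      rw [← hc, sub_eq_add_neg, add_comm,
        S24.Place.ord_add_eq_of_lt Q (neg_ne_zero.mpr hc0) hrT0
          (by rw [S24.Place.ord_neg, S24.Place.ord_algebraMap, hT.ord]; norm_num),
        S24.Place.ord_neg, S24.Place.ord_algebraMap]
    rcases h.rd_sub_value hT.mem hT.reg hP ha with h1 | h1
    · have := hT.ord
      rw [h1, ← hc, S24.Place.ord_algebraMap] at this
      norm_num at this
    · rw [hord] at h1
      exact lt_irrefl _ h1
  have hva1 : O.valuation (algebraMap L F a) < 1 :=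
    (h.rd_eq_zero_iff (mem_of_val_le hva)).mp hra
  have hrX : rd O red (T - algebraMap L F a) = rd O red T := by
    rw [rd_sub hT.mem (mem_of_val_le hva), hra, sub_zero]
  have hvX : O.valuation (T - algebraMap L F a) = 1 :=
    h.val_eq_one_of_rd_ne_zero (by rw [hrX]; exact hrT0)
  obtain ⟨D, hD⟩ := h.exists_div _ (h.ne_zero_of_val_eq_one hvX)
  have hsum : D.mapDomain r Q = 1 := by
    rw [← h.ord_rd hvX D hD Q, hrX, hT.ord]
  obtain ⟨P0, hP0, hP01, hP0u⟩ := exists_unique_of_mapDomain_apply_eq_one r D Q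
    (fun P' hP' => by rw [hD]; exact ord_sub_const_nonneg _ (hT.reg P' hP') a) hsum
  have hPpos : 0 < P.ord (T - algebraMap L F a) := by
    rcases ha with ha | ha
    · rw [← ha, hvT] at hva1
      exact absurd hva1 (lt_irrefl _)
    · exact ha
  have hPP0 : P = P0 := by
    by_contra hne
    have := hP0u P hP hne
    rw [hD] at this
    omega
  subst hPP0
  refine ⟨a, hva1, by rw [← hD]; exact hP01, fun P' hP' hne => by rw [← hD]; exact hP0u P' hP' hne⟩

open Classical in
/-- The first order computation in a residue disc. -/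
theorem local_lemma (h : IsReduction O red r) {Q : Place k Fb} {T : F}
    (hT : IsLocalParam O red r Q T) {m : ℕ} (hm : O.valuation (m : F) = 1)
    {P' P'' : Place L F} (hP' : r P' = Q) (hP'' : r P'' = Q) {f w : F} {c : L}
    (hf : ∀ P, r P = Q →
      P.ord f = m * ((if P = P' then 1 else 0) - (if P = P'' then 1 else 0)))
    (hc0 : c ≠ 0) (hc : O.valuation (algebraMap L F c) < 1) (hw : O.valuation w = 1)
    (hfw : f = 1 + algebraMap L F c * w) : -1 ≤ Q.ord (rd O red w) := by
  obtain ⟨α, hα, hα1, hα0⟩ := hT.exists_shift h hP'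
  obtain ⟨β, hβ, hβ1, hβ0⟩ := hT.exists_shift h hP''
  have hrT0 : rd O red T ≠ 0 := ne_zero_of_ord_ne_zero Q (by rw [hT.ord]; norm_num)
  set X' : F := T - algebraMap L F α with hX'
  set X'' : F := T - algebraMap L F β with hX''
  have hrX' : rd O red X' = rd O red T := by
    rw [hX', rd_sub hT.mem (mem_of_val_le hα.le), h.rd_eq_zero hα, sub_zero]
  have hrX'' : rd O red X'' = rd O red T := by
    rw [hX'', rd_sub hT.mem (mem_of_val_le hβ.le), h.rd_eq_zero hβ, sub_zero]
  have hvX' : O.valuation X' = 1 := h.val_eq_one_of_rd_ne_zero (by rw [hrX']; exact hrT0)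
  have hvX'' : O.valuation X'' = 1 := h.val_eq_one_of_rd_ne_zero (by rw [hrX'']; exact hrT0)
  have hX'0 : X' ≠ 0 := h.ne_zero_of_val_eq_one hvX'
  have hX''0 : X'' ≠ 0 := h.ne_zero_of_val_eq_one hvX''
  have hcw : O.valuation (algebraMap L F c * w) < 1 := by rw [map_mul, hw, mul_one]; exact hc
  have hvf : O.valuation f = 1 := by rw [hfw]; exact Valuation.map_one_add_of_lt _ hcw
  have hf0 : f ≠ 0 := h.ne_zero_of_val_eq_one hvf
  have hrf : rd O red f = 1 := by
    rw [hfw, rd_add O.one_mem (mem_of_val_le hcw.le), rd_one, h.rd_eq_zero hcw, add_zero]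
  have hvq : O.valuation (X'' / X') = 1 := by rw [map_div₀, hvX', hvX'', div_one]
  have hrq : rd O red (X'' / X') = 1 := by
    rw [h.rd_div (mem_of_val_le hvX''.le) hvX', hrX', hrX'', div_self hrT0]
  set U : F := f * (X'' / X') ^ m with hU
  have hvU : O.valuation U = 1 := by rw [hU, map_mul, map_pow, hvf, hvq, one_pow, one_mul]
  have hrU : rd O red U = 1 := by
    rw [hU, rd_mul (mem_of_val_le hvf.le) (O.pow_mem (mem_of_val_le hvq.le) m),
      rd_pow (mem_of_val_le hvq.le), hrf, hrq, one_pow, one_mul]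
  have hU0 : U ≠ 0 := h.ne_zero_of_val_eq_one hvU
  have hordX' : ∀ P, r P = Q → P.ord X' = if P = P' then 1 else 0 := by
    intro P hP
    split_ifs with hPP
    · rw [hPP]; exact hα1
    · exact hα0 P hP hPP
  have hordX'' : ∀ P, r P = Q → P.ord X'' = if P = P'' then 1 else 0 := by
    intro P hP
    split_ifs with hPP
    · rw [hPP]; exact hβ1
    · exact hβ0 P hP hPP
  have hordU : ∀ P, r P = Q → P.ord U = 0 := by
    intro P hP
    rw [hU, P.ord_mul hf0 (pow_ne_zero _ (div_ne_zero hX''0 hX'0)), S24.Place.ord_pow,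
      ord_div P hX''0 hX'0, hf P hP, hordX' P hP, hordX'' P hP]
    ring
  set u : F := U - 1 with hu
  have hvu : O.valuation u < 1 := by
    rw [← h.rd_eq_zero_iff (O.sub_mem (mem_of_val_le hvU.le) O.one_mem),
      rd_sub (mem_of_val_le hvU.le) O.one_mem, hrU, rd_one, sub_self]
  have hregu : ∀ P, r P = Q → 0 ≤ P.ord u := by
    intro P hP
    have := ord_sub_const_nonneg P (x := U) (by rw [hordU P hP]) (1 : L)
    rwa [map_one] at this
  set a' : L := α - β with ha'
  have hva' : O.valuation (algebraMap L F a') < 1 := by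
    rw [ha', map_sub]
    exact Valuation.map_sub_lt _ hα hβ
  set s : F := algebraMap L F a' / X'' with hs
  have hvs : O.valuation s < 1 := by rw [hs, map_div₀, hvX'', div_one]; exact hva'
  obtain ⟨p, hp⟩ := exists_one_sub_pow (⟨s, mem_of_val_le hvs.le⟩ : O) m
  have hp' : (1 - s) ^ m = 1 - m * s + s ^ 2 * (p : F) := by
    have := congrArg (Subtype.val) hp
    simpa using this
  have hq : X' / X'' = 1 - s := by
    have hXX : X' = X'' - algebraMap L F a' := by rw [hX', hX'', ha', map_sub]; ring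
    rw [hs, hXX, sub_div, div_self hX''0]
  have hfU : f = U * (1 - s) ^ m := by
    rw [hU, ← hq, mul_assoc, ← mul_pow, div_mul_div_comm, mul_comm X'' X',
      div_self (mul_ne_zero hX'0 hX''0), one_pow, mul_one]
  set Z : F := -(m : F) + s * (p : F) with hZ
  have hvsp : O.valuation (s * (p : F)) < 1 := by
    rw [map_mul]
    exact lt_of_le_of_lt (mul_le_of_le_one_right zero_le (val_le_of_mem p.2)) hvs
  have hmO : (m : F) ∈ O := mem_of_val_le hm.le
  have hrZ : rd O red Z = - rd O red (m : F) := by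
    rw [hZ, rd_add (O.neg_mem _ hmO) (mem_of_val_le hvsp.le), rd_neg hmO, h.rd_eq_zero hvsp,
      add_zero]
  have hrm0 : rd O red (m : F) ≠ 0 := h.rd_ne_zero hm
  have hvZ : O.valuation Z = 1 :=
    h.val_eq_one_of_rd_ne_zero (by rw [hrZ]; exact neg_ne_zero.mpr hrm0)
  set Y : F := U * Z / X'' with hY
  have hvY : O.valuation Y = 1 := by rw [hY, map_div₀, map_mul, hvU, hvZ, hvX'', one_mul, div_one]
  have hrY : rd O red Y = - rd O red (m : F) / rd O red T := by
    rw [hY, h.rd_div (O.mul_mem _ _ (mem_of_val_le hvU.le) (mem_of_val_le hvZ.le)) hvX'',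
      rd_mul (mem_of_val_le hvU.le) (mem_of_val_le hvZ.le), hrU, hrZ, hrX'', one_mul]
  have hordm : Q.ord (rd O red (m : F)) = 0 := by
    have : (m : F) = algebraMap L F (m : L) := by simp
    rw [this]
    exact ord_of_mem_range Q (h.rd_const _)
  have hordY : Q.ord (rd O red Y) = -1 := by
    rw [hrY, ord_div Q (neg_ne_zero.mpr hrm0) hrT0, S24.Place.ord_neg, hordm, hT.ord]
    norm_num
  have hkey : algebraMap L F c * w = u + algebraMap L F a' * Y := by
    have h1 : algebraMap L F c * w = f - 1 := by rw [hfw]; ring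
    rw [h1, hfU, hp', hY, hZ, hu]
    have h2 : algebraMap L F a' = s * X'' := by rw [hs, div_mul_cancel₀ _ hX''0]
    rw [h2]
    field_simp
    ring
  have hcF : algebraMap L F c ≠ 0 := by simpa using hc0
  have hvc0 : O.valuation (algebraMap L F c) ≠ 0 := (Valuation.ne_zero_iff _).mpr hcF
  rcases le_or_gt (O.valuation (algebraMap L F a')) (O.valuation (algebraMap L F c)) with hle | hlt
  · -- `w = u / c + (a' / c) Y`
    have hvac : O.valuation (algebraMap L F (a' / c)) ≤ 1 := by
      rw [map_div₀, map_div₀]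
      exact div_le_one_of_le₀ hle zero_le
    have hwe : w = u * algebraMap L F c⁻¹ + algebraMap L F (a' / c) * Y := by
      rw [map_div₀, map_inv₀]
      field_simp
      rw [mul_comm w, hkey]
    have hacY : algebraMap L F (a' / c) * Y ∈ O :=
      O.mul_mem _ _ (mem_of_val_le hvac) (mem_of_val_le hvY.le)
    have huc : u * algebraMap L F c⁻¹ ∈ O := by
      have : u * algebraMap L F c⁻¹ = w - algebraMap L F (a' / c) * Y := by rw [hwe]; ring
      rw [this]
      exact O.sub_mem (mem_of_val_le hw.le) hacY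
    rw [hwe, rd_add huc hacY]
    refine ord_add_ge' Q (by norm_num) ?_ ?_
    · refine le_trans (by norm_num) (h.ord_rd_nonneg huc Q fun P hP => ?_)
      rw [ord_mul_const _ _ (inv_ne_zero hc0)]
      exact hregu P hP
    · rw [rd_mul (mem_of_val_le hvac) (mem_of_val_le hvY.le)]
      obtain ⟨e, he⟩ := h.rd_const (a' / c)
      rw [← he, mul_comm]
      rcases eq_or_ne e 0 with rfl | he0
      · simp
      · rw [ord_mul_const _ _ he0, hordY]
  · -- impossible
    exfalso
    have ha0 : a' ≠ 0 := by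
      intro h0
      rw [h0, map_zero, map_zero] at hlt
      exact not_lt_zero hlt
    have haF : algebraMap L F a' ≠ 0 := by simpa using ha0
    have hvca : O.valuation (algebraMap L F c / algebraMap L F a' * w) < 1 := by
      rw [map_mul, hw, mul_one, map_div₀]
      exact (div_lt_one₀ (lt_of_le_of_lt zero_le hlt)).mpr hlt
    have hue : u * algebraMap L F a'⁻¹ = algebraMap L F c / algebraMap L F a' * w - Y := by
      have : u = algebraMap L F c * w - algebraMap L F a' * Y := by rw [hkey]; ring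
      rw [this, map_inv₀]
      field_simp
    have hmem : u * algebraMap L F a'⁻¹ ∈ O := by
      rw [hue]
      exact O.sub_mem (mem_of_val_le hvca.le) (mem_of_val_le hvY.le)
    have hnn := h.ord_rd_nonneg hmem Q fun P hP => by
      rw [ord_mul_const _ _ (inv_ne_zero ha0)]
      exact hregu P hP
    rw [hue, rd_sub (mem_of_val_le hvca.le) (mem_of_val_le hvY.le), h.rd_eq_zero hvca, zero_sub,
      S24.Place.ord_neg, hordY] at hnn
    norm_num at hnn

theorem IsReduction.exists_normalise (h : IsReduction O red r) {f : F} (hf : f ≠ 0) :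
    ∃ c : L, c ≠ 0 ∧ O.valuation (f * algebraMap L F c) = 1 := by
  obtain ⟨c, hc⟩ := h.scale f hf
  have hvf : O.valuation f ≠ 0 := (Valuation.ne_zero_iff _).mpr hf
  have hc0 : c ≠ 0 := by
    rintro rfl
    rw [map_zero, map_zero] at hc
    exact hvf hc
  refine ⟨c⁻¹, inv_ne_zero hc0, ?_⟩
  rw [map_mul, map_inv₀, map_inv₀, ← hc, mul_inv_cancel₀ hvf]

open Classical in
/-- **Injectivity of reduction on torsion prime to the residue characteristic**, abstract form. -/
theorem isPrincipal_of_torsion (h : IsReduction O red r) {g : ℕ}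
    (hRiemann : ∀ D : Divisor L F, Divisor.degree D = g →
      ∃ φ : F, φ ≠ 0 ∧ ∀ P : Place L F, 0 ≤ P.ord φ + D P)
    (hdeg1 : ∀ P : Place L F, P.deg = 1)
    (Pt : Fin g → Place L F) (hinj : Function.Injective (r ∘ Pt))
    (T : Fin g → F) (hT : ∀ i, IsLocalParam O red r (r (Pt i)) (T i))
    (hns : ∀ φ : Fb, (∀ Q : Place k Fb,
      -(if Q ∈ Set.range (r ∘ Pt) then 1 else 0 : ℤ) ≤ Q.ord φ) →
        φ ∈ Set.range (algebraMap k Fb))
    (P0 : Place L F) (hP0 : r P0 ∉ Set.range (r ∘ Pt))
    {m : ℕ} (hm : O.valuation (m : F) = 1)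
    (D : Divisor L F) (hD0 : Divisor.degree D = 0) (hmD : Divisor.IsPrincipal (m • D))
    (hrD : Divisor.IsPrincipal (D.mapDomain r)) : Divisor.IsPrincipal D := by
  have hPtinj : Function.Injective Pt := hinj.of_comp
  set B : Divisor L F := ∑ i, Finsupp.single (Pt i) (1 : ℤ) with hB
  have hBdeg : Divisor.degree B = g := by
    rw [hB, map_sum]
    simp [hdeg1]
  have hBapp : ∀ P, B P = if P ∈ Set.range Pt then 1 else 0 :=
    sum_single_apply_of_injective Pt hPtinj
  have hrB : ∀ Q, B.mapDomain r Q = if Q ∈ Set.range (r ∘ Pt) then 1 else 0 := by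
    intro Q
    rw [hB, Finsupp.mapDomain_finsetSum]
    simp only [Finsupp.mapDomain_single]
    exact sum_single_apply_of_injective (r ∘ Pt) hinj Q
  obtain ⟨φ0, hφ00, hφ0⟩ := hRiemann (D + B) (by rw [map_add, hD0, hBdeg, zero_add])
  obtain ⟨c0, hc0, hvφ⟩ := h.exists_normalise hφ00
  set φ : F := φ0 * algebraMap L F c0 with hφ
  have hφne : φ ≠ 0 := h.ne_zero_of_val_eq_one hvφ
  have hordφ : ∀ P : Place L F, P.ord φ = P.ord φ0 := fun P => ord_mul_const P _ hc0
  obtain ⟨Dφ, hDφ⟩ := h.exists_div φ hφne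
  set E : Divisor L F := Dφ + D + B with hE
  have hEnn : ∀ P, 0 ≤ E P := by
    intro P
    have := hφ0 P
    rw [hE, Finsupp.add_apply, Finsupp.add_apply, hDφ, hordφ]
    rw [Finsupp.add_apply] at this
    linarith
  obtain ⟨δ, hδ0, hδ⟩ := hrD
  have hrφ0 : rd O red φ ≠ 0 := h.rd_ne_zero hvφ
  have hordγ : ∀ Q : Place k Fb, Q.ord (rd O red φ * δ) = E.mapDomain r Q - B.mapDomain r Q := by
    intro Q
    rw [Q.ord_mul hrφ0 hδ0, h.ord_rd hvφ Dφ hDφ, ← hδ, hE, Finsupp.mapDomain_add,
      Finsupp.mapDomain_add, Finsupp.add_apply, Finsupp.add_apply]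
    ring
  have hγc : rd O red φ * δ ∈ Set.range (algebraMap k Fb) := by
    refine hns _ fun Q => ?_
    rw [hordγ, hrB]
    have := mapDomain_apply_nonneg r E Q fun P _ => hEnn P
    linarith
  have hrE : ∀ Q, E.mapDomain r Q = if Q ∈ Set.range (r ∘ Pt) then 1 else 0 := by
    intro Q
    have := hordγ Q
    rw [ord_of_mem_range Q hγc, hrB] at this
    linarith
  -- the points of `E`
  have hEi : ∀ i, ∃ P', r P' = r (Pt i) ∧ E P' = 1 ∧ ∀ P, r P = r (Pt i) → P ≠ P' → E P = 0 :=
    fun i => exists_unique_of_mapDomain_apply_eq_one r E _ (fun P _ => hEnn P)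
      (by rw [hrE, if_pos ⟨i, rfl⟩])
  choose P' hP'r hP'1 hP'0 using hEi
  have hEout : ∀ P, r P ∉ Set.range (r ∘ Pt) → E P = 0 := fun P hP =>
    eq_zero_of_mapDomain_apply_eq_zero r E _ (fun P _ => hEnn P) (by rw [hrE, if_neg hP]) P rfl
  have hBout : ∀ P, r P ∉ Set.range (r ∘ Pt) → B P = 0 := fun P hP => by
    rw [hBapp, if_neg]
    rintro ⟨i, rfl⟩
    exact hP ⟨i, rfl⟩
  -- the function with divisor `m (E - B)`
  obtain ⟨ψ, hψ0, hψ⟩ := hmD
  have hf00 : φ ^ m * ψ ≠ 0 := mul_ne_zero (pow_ne_zero _ hφne) hψ0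
  obtain ⟨c1, hc1, hvf1⟩ := h.exists_normalise hf00
  set f1 : F := φ ^ m * ψ * algebraMap L F c1 with hf1
  have hordf1 : ∀ P : Place L F, P.ord f1 = m * (E P - B P) := by
    intro P
    rw [hf1, ord_mul_const P _ hc1, P.ord_mul (pow_ne_zero _ hφne) hψ0, S24.Place.ord_pow, ← hψ,
      ← hDφ, hE, Finsupp.smul_apply, Finsupp.add_apply, Finsupp.add_apply]
    simp only [nsmul_eq_mul]
    ring
  have hf1O : f1 ∈ O := mem_of_val_le hvf1.le
  have hrf1ord : ∀ Q : Place k Fb, Q.ord (rd O red f1) = 0 := by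
    intro Q
    rw [h.ord_rd hvf1 (m • (E - B)) (fun P => by
      rw [hordf1, Finsupp.smul_apply, Finsupp.sub_apply, nsmul_eq_mul]),
      Finsupp.mapDomain_smul, Finsupp.smul_apply, sub_eq_add_neg, Finsupp.mapDomain_add,
      Finsupp.add_apply, ← Finsupp.mapDomain.addMonoidHom_apply r (-B), map_neg,
      Finsupp.neg_apply, Finsupp.mapDomain.addMonoidHom_apply, hrE, hrB]
    simp
  have hrf1c : rd O red f1 ∈ Set.range (algebraMap k Fb) := by
    refine hns _ fun Q => ?_
    rw [hrf1ord]
    split_ifs <;> norm_num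
  have hf1reg : ∀ P, r P = r P0 → 0 ≤ P.ord f1 := by
    intro P hP
    rw [hordf1, hEout P (hP ▸ hP0), hBout P (hP ▸ hP0)]
    simp
  obtain ⟨a, ha⟩ := h.exists_value P0 f1
    ((S24.Place.mem_iff_ord_nonneg P0 (h.ne_zero_of_val_eq_one hvf1)).mpr (hf1reg P0 rfl))
  have hva_le := h.val_value_le_one hf1O hf1reg rfl ha
  have hra : rd O red f1 = rd O red (algebraMap L F a) := by
    rcases h.rd_sub_value hf1O hf1reg rfl ha with h1 | h1
    · exact h1
    · exfalso
      obtain ⟨e1, he1⟩ := hrf1c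
      obtain ⟨e2, he2⟩ := h.rd_const a
      rw [← he1, ← he2, ← map_sub, S24.Place.ord_algebraMap] at h1
      exact lt_irrefl _ h1
  have hva : O.valuation (algebraMap L F a) = 1 :=
    h.val_eq_one_of_rd_ne_zero (by rw [← hra]; exact h.rd_ne_zero hvf1)
  have haF : algebraMap L F a ≠ 0 := h.ne_zero_of_val_eq_one hva
  have ha0 : a ≠ 0 := by
    rintro rfl
    exact haF (map_zero _)
  set f : F := f1 * algebraMap L F a⁻¹ with hf
  have hfdiv : f = f1 / algebraMap L F a := by rw [hf, map_inv₀, div_eq_mul_inv]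
  have hvf : O.valuation f = 1 := by rw [hfdiv, map_div₀, hvf1, hva, div_one]
  have hrf : rd O red f = 1 := by
    rw [hfdiv, h.rd_div hf1O hva, hra, div_self (h.rd_ne_zero hva)]
  have hordf : ∀ P : Place L F, P.ord f = m * (E P - B P) := fun P => by
    rw [hf, ord_mul_const P _ (inv_ne_zero ha0), hordf1]
  have hm0 : (m : ℤ) ≠ 0 := by
    intro h0
    have : m = 0 := by exact_mod_cast h0
    rw [this] at hm
    simp at hm
  by_cases hf1' : f = 1
  · -- then `E = B`
    refine ⟨φ⁻¹, inv_ne_zero hφne, fun P => ?_⟩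
    have := hordf P
    rw [hf1', Place.ord_one] at this
    have hEB : E P - B P = 0 := by
      rcases mul_eq_zero.mp this.symm with h1 | h1
      · exact absurd h1 hm0
      · exact h1
    rw [Place.ord_inv, ← hDφ]
    rw [hE, Finsupp.add_apply, Finsupp.add_apply] at hEB
    linarith
  · exfalso
    have hfsub : f - 1 = (f1 - algebraMap L F a) * algebraMap L F a⁻¹ := by
      rw [hf, map_inv₀]
      field_simp
    have hP0pos : 0 < P0.ord (f - 1) := by
      rcases ha with ha | ha
      · exfalso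
        apply hf1'
        rw [hfdiv, ← ha, div_self (ha ▸ haF)]
      · rw [hfsub, ord_mul_const _ _ (inv_ne_zero ha0)]
        exact ha
    have hfs0 : f - 1 ≠ 0 := sub_ne_zero.mpr hf1'
    have hvfs : O.valuation (f - 1) < 1 := by
      rw [← h.rd_eq_zero_iff (O.sub_mem (mem_of_val_le hvf.le) O.one_mem),
        rd_sub (mem_of_val_le hvf.le) O.one_mem, hrf, rd_one, sub_self]
    obtain ⟨c2, hc2, hvw⟩ := h.exists_normalise hfs0
    set w : F := (f - 1) * algebraMap L F c2 with hw
    have hc2F : algebraMap L F c2 ≠ 0 := by simpa using hc2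
    have hfw : f = 1 + algebraMap L F c2⁻¹ * w := by
      rw [hw, map_inv₀]
      field_simp
      ring
    have hvc : O.valuation (algebraMap L F c2⁻¹) < 1 := by
      have h1 : O.valuation (f - 1) * O.valuation (algebraMap L F c2) = 1 := by
        rw [← map_mul]; exact hvw
      have h2 : O.valuation (algebraMap L F c2⁻¹) = O.valuation (f - 1) := by
        rw [map_inv₀, map_inv₀]
        exact (eq_inv_of_mul_eq_one_left h1).symm
      rw [h2]; exact hvfs
    have hwreg : ∀ P, r P ∉ Set.range (r ∘ Pt) → 0 ≤ P.ord w := by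
      intro P hP
      rw [hw, ord_mul_const _ _ hc2]
      have := ord_sub_const_nonneg P (x := f)
        (by rw [hordf, hEout P hP, hBout P hP]; simp) (1 : L)
      rwa [map_one] at this
    have hwc : rd O red w ∈ Set.range (algebraMap k Fb) := by
      refine hns _ fun Q => ?_
      split_ifs with hQ
      · obtain ⟨i, rfl⟩ := hQ
        refine local_lemma h (hT i) hm (hP'r i) rfl (fun P hP => ?_) (inv_ne_zero hc2) hvc hvw hfw
        rw [hordf]
        congr 2
        · split_ifs with hPP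
          · rw [hPP]; exact hP'1 i
          · exact hP'0 i P hP hPP
        · rw [hBapp]
          by_cases hPP : P = Pt i
          · rw [if_pos hPP, if_pos ⟨i, hPP.symm⟩]
          · rw [if_neg hPP, if_neg]
            rintro ⟨j, rfl⟩
            exact hPP (congrArg Pt (hinj hP))
      · simpa using h.ord_rd_nonneg (mem_of_val_le hvw.le) Q fun P hP => hwreg P (hP ▸ hQ)
    have hpos := h.ord_rd_pos hvw (r P0) (fun P hP => hwreg P (hP ▸ hP0)) P0 rfl
      (by rw [hw, ord_mul_const _ _ hc2]; exact hP0pos)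
    rw [ord_of_mem_range _ hwc] at hpos
    exact lt_irrefl _ hpos

end Main

end

end Fermat.Agent.RED
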