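import Fermat.Agent.RED.FF.Param

/-!
A separating parameter is unramified at all but finitely many places.
-/

set_option autoImplicit false
set_option linter.style.haveILetI false

open AlgebraicCurve IsDedekindDomain IntermediateField
open scoped IntermediateField.algebraAdjoinAdjoin
open Fermat.Agent.S24

namespace Fermat.Agent.RED

section Abstract

variable {K F : Type*} [Field K] [Field F] [Algebra K F]
variable {A : Type*} (k : Type*) {B : Type*} [CommRing A] [IsDedekindDomain A] [Field k] [Algebra A k]
  [IsFractionRing A k]
  [CommRing B] [IsDedekindDomain B] [Algebra A B] [Algebra B F] [IsFractionRing B F] [Algebra k F]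
  [Algebra A F]
  [IsScalarTower A B F] [IsScalarTower A k F] [Module.Finite A B]
  [Algebra K B] [IsScalarTower K B F]
  [FiniteDimensional k F] [Algebra.IsSeparable k F] [IsIntegralClosure B A F]

include k in
theorem exists_ramified_mem :
    ∃ d : B, d ≠ 0 ∧ ∀ (a : A), (Ideal.span {a}).IsMaximal → a ≠ 0 →
      ∀ w : HeightOneSpectrum B,
        2 ≤ (Place.ofHeightOneSpectrum (K := K) w).ord (algebraMap A F a) → d ∈ w.asIdeal := by
  have hinj : Function.Injective (algebraMap A B) :=
    algebraMap_injective_of_field_isFractionRing A B k F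
  haveI : FaithfulSMul A B := (faithfulSMul_iff_algebraMap_injective A B).mpr hinj
  haveI : Module.IsTorsionFree A B := inferInstance
  have hne : differentIdeal A B ≠ ⊥ := by
    rw [ne_eq, ← FractionalIdeal.coeIdeal_inj (K := F), coeIdeal_differentIdeal A k F B]
    simp
  obtain ⟨d, hd, hd0⟩ := Submodule.exists_mem_ne_zero_of_ne_bot hne
  refine ⟨d, hd0, fun a hmax ha0 w hw => ?_⟩
  have hb0 : algebraMap A B a ≠ 0 := by
    intro h
    exact ha0 (hinj (by rw [h, map_zero]))
  have hp0 : Ideal.span {a} ≠ ⊥ := by simpa using ha0
  have hmap : Ideal.map (algebraMap A B) (Ideal.span {a}) = Ideal.span {algebraMap A B a} := by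
    rw [Ideal.map_span, Set.image_singleton]
  have hdvd : w.asIdeal ^ 2 ∣ Ideal.map (algebraMap A B) (Ideal.span {a}) := by
    rw [hmap, ← HeightOneSpectrum.intValuation_le_pow_iff_dvd]
    rw [IsScalarTower.algebraMap_apply A B F, ord_ofHeightOneSpectrum w (algebraMap_ne_zero' hb0),
      HeightOneSpectrum.valuation_of_algebraMap] at hw
    have hv0 : w.intValuation (algebraMap A B a) ≠ 0 := w.intValuation_ne_zero _ hb0
    rw [← WithZero.log_le_iff_le_exp hv0]
    push_cast
    linarith
  have := pow_sub_one_dvd_differentIdeal_aux A k F w.asIdeal (e := 2) (by norm_num) hp0 hdvd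
  simp only [Nat.add_one_sub_one, pow_one] at this
  exact Ideal.dvd_iff_le.mp this hd

end Abstract

variable {K F : Type*} [Field K] [Field F] [Algebra K F] {x : F}

namespace IsSepParam

theorem isMaximal_span_gen_sub (hx : IsSepParam K x) (c : K) :
    (Ideal.span {IsFiniteParam.gen K x - algebraMap K (polyRing K x) c}).IsMaximal := by
  haveI := hx.isPrincipalIdealRing
  apply PrincipalIdealRing.isMaximal_of_irreducible
  have h : IsFiniteParam.gen K x - algebraMap K (polyRing K x) c =
      (Polynomial.algEquivOfTranscendental K x hx.transcendental)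
        (Polynomial.X - Polynomial.C c) := by
    apply Subtype.ext
    simp [IsFiniteParam.gen]
  rw [h]
  exact (MulEquiv.irreducible_iff
    (Polynomial.algEquivOfTranscendental K x hx.transcendental).toMulEquiv).2
      (Polynomial.irreducible_X_sub_C c)

/-- All but finitely many places are unramified over the `x`-line. -/
theorem finite_ramified (hx : IsSepParam K x) :
    {v : Place K F | ∃ c : K, 2 ≤ v.ord (x - algebraMap K F c)}.Finite := by
  haveI := hx.isPrincipalIdealRing
  haveI := hx.finite
  haveI := hx.separable
  haveI := hx.isDedekindDomain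
  haveI := hx.isFractionRing
  haveI := hx.moduleFinite
  haveI := IsFiniteParam.isScalarTower_intRing (K := K) (y := x)
  haveI : IsScalarTower (polyRing K x) (intRing K x) F :=
    IsScalarTower.of_algebraMap_eq (fun _ => rfl)
  obtain ⟨d, hd0, hd⟩ := exists_ramified_mem (K := K) (F := F) (A := polyRing K x) K⟮x⟯
    (B := intRing K x)
  refine ((hx.finite_primes_of_ne_zero hd0).image hx.place).subset ?_
  rintro v ⟨c, hc⟩
  have hne : x - algebraMap K F c ≠ 0 := by
    intro h0
    rw [h0] at hc
    simp at hc
  have hxv : x ∈ v.toValuationSubring := by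
    have h1 : x - algebraMap K F c ∈ v.toValuationSubring :=
      (Place.mem_iff_ord_nonneg v hne).2 (by omega)
    have := v.toValuationSubring.add_mem _ _ h1 (v.algebraMap_mem' c)
    simpa using this
  obtain ⟨w, rfl⟩ := hx.exists_eq_place v hxv
  refine ⟨w, hd _ (hx.isMaximal_span_gen_sub c) ?_ w hc, rfl⟩
  intro h0
  apply hne
  have := congrArg (Subtype.val) h0
  simpa [IsFiniteParam.gen] using this

end IsSepParam

end Fermat.Agent.RED
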