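import Fermat.Agent.RED.FF.Riemann
import Fermat.Agent.RED.Unramified
import Fermat.Agent.RED.TorsionInj

/-!
Non-special points from Riemann's theorem, local parameters from a degree preserving separating
parameter, and the resulting form of the injectivity of reduction on torsion.
-/

set_option autoImplicit false
set_option linter.style.haveILetI false

open AlgebraicCurve IsDedekindDomain IntermediateField
open Fermat.Agent.S24

namespace Fermat.Agent.RED

section NS

variable {K F : Type*} [Field K] [Field F] [Algebra K F] {x : F}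

namespace IsSepParam

theorem exists_place_value [IsAlgClosed K] (hx : IsSepParam K x) (c : K) :
    ∃ v : Place K F, 0 < v.ord (x - algebraMap K F c) := by
  have h := hx.sum_fibre c
  haveI := hx.finite
  have hpos : 0 < Module.finrank K⟮x⟯ F := Module.finrank_pos
  by_contra hcon
  push Not at hcon
  have hempty : (hx.finite_fibre c).toFinset = ∅ := by
    ext v
    simp only [Set.Finite.mem_toFinset, Set.mem_ofPred_eq, Finset.notMem_empty, iff_false, not_lt]
    exact hcon v
  rw [hempty, Finset.sum_empty] at h
  have : (0 : ℤ) < Module.finrank K⟮x⟯ F := by exact_mod_cast hpos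
  omega

theorem infinite_place45 [IsAlgClosed K] (hx : IsSepParam K x) : Infinite (Place K F) := by
  choose v hv using hx.exists_place_value
  haveI : Infinite K := IsAlgClosed.instInfinite
  refine Infinite.of_injective v ?_
  intro c c' hcc
  by_contra hne
  have h1 := hv c
  have h2 := hv c'
  rw [← hcc] at h2
  have hx1 : x - algebraMap K F c ≠ 0 := ne_zero_of_ord_ne_zero _ h1.ne'
  have hx2 : x - algebraMap K F c' ≠ 0 := ne_zero_of_ord_ne_zero _ h2.ne'
  have hd : (x - algebraMap K F c) + -(x - algebraMap K F c') = algebraMap K F (c' - c) := by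
    rw [map_sub]; ring
  have hd0 : algebraMap K F (c' - c) ≠ 0 := by
    simpa [sub_eq_zero] using (Ne.symm hne)
  have := Place.ord_add_ge (v c) hx1 (neg_ne_zero.mpr hx2) (by rw [hd]; exact hd0)
  rw [hd, Place.ord_algebraMap, Place.ord_neg] at this
  have := lt_min h1 h2
  omega

/-- A special divisor can be enlarged by a generic point without enlarging its space. -/
theorem exists_ell_add_single_eq [IsAlgClosed K] (hx : IsSepParam K x) (D : Divisor K F)
    (hD : Divisor.degree D + 1 - gR K F < ell D) (S : Set (Place K F)) (hS : S.Finite) :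
    ∃ v ∉ S, ell (D + Finsupp.single v 1) = ell D := by
  classical
  by_contra hcon
  push Not at hcon
  have key : ∀ R : Finset (Place K F), (∀ v ∈ R, v ∉ S) →
      ell D + R.card ≤ ell (D + ∑ v ∈ R, Finsupp.single v (1 : ℤ)) := by
    intro R
    induction R using Finset.induction_on with
    | empty => intro _; simp
    | insert v R hvR ih =>
      intro hR
      have ih' := ih fun w hw => hR w (Finset.mem_insert_of_mem hw)
      have hvS := hR v (Finset.mem_insert_self v R)
      have hle : D ≤ D + Finsupp.single v 1 := by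
        intro w
        rw [Finsupp.add_apply]
        have : (0 : ℤ) ≤ Finsupp.single v (1 : ℤ) w := by
          rw [Finsupp.single_apply]; split_ifs <;> norm_num
        linarith
      obtain ⟨f, hf, hfD⟩ : ∃ f ∈ riemannRochSpace (D + Finsupp.single v 1),
          f ∉ riemannRochSpace D := by
        by_contra hno
        push Not at hno
        apply hcon v hvS
        have : riemannRochSpace (D + Finsupp.single v 1) = riemannRochSpace D :=
          le_antisymm hno (L_mono hle)
        unfold ell
        rw [this]
      have hf0 : f ≠ 0 := fun h0 => hfD (h0 ▸ Submodule.zero_mem _)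
      have hfv : v.ord f + D v < 0 := by
        rw [mem_L_iff_of_ne_zero hf0] at hf hfD
        push Not at hfD
        obtain ⟨w, hw⟩ := hfD
        have h1 := hf w
        rw [Finsupp.add_apply] at h1
        by_cases hwv : w = v
        · subst hwv; exact hw
        · rw [Finsupp.single_eq_of_ne hwv] at h1
          omega
      have hsum_nonneg : ∀ w, (0 : ℤ) ≤ (∑ u ∈ R, Finsupp.single u (1 : ℤ)) w := by
        intro w
        rw [Finsupp.finsetSum_apply]
        refine Finset.sum_nonneg fun u _ => ?_
        rw [Finsupp.single_apply]; split_ifs <;> norm_num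
      have hsum_v : (∑ u ∈ R, Finsupp.single u (1 : ℤ)) v = 0 := by
        rw [Finsupp.finsetSum_apply]
        refine Finset.sum_eq_zero fun u hu => ?_
        rw [Finsupp.single_apply, if_neg]
        rintro rfl
        exact hvR hu
      have hlt : riemannRochSpace (D + ∑ u ∈ R, Finsupp.single u (1 : ℤ)) <
          riemannRochSpace (D + ∑ u ∈ insert v R, Finsupp.single u (1 : ℤ)) := by
        rw [Finset.sum_insert hvR]
        refine lt_of_le_of_ne (L_mono ?_) ?_
        · intro w
          simp only [Finsupp.add_apply]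
          have : (0 : ℤ) ≤ Finsupp.single v (1 : ℤ) w := by
            rw [Finsupp.single_apply]; split_ifs <;> norm_num
          linarith
        · intro heq
          have h1 : f ∈ riemannRochSpace
              (D + (Finsupp.single v (1 : ℤ) + ∑ u ∈ R, Finsupp.single u (1 : ℤ))) := by
            refine L_mono ?_ hf
            intro w
            simp only [Finsupp.add_apply]
            have := hsum_nonneg w
            linarith
          rw [← heq, mem_L_iff_of_ne_zero hf0] at h1
          have := h1 v
          rw [Finsupp.add_apply, hsum_v] at this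
          omega
      haveI := hx.finite_L (D + ∑ u ∈ insert v R, Finsupp.single u (1 : ℤ))
      have := Submodule.finrank_lt_finrank_of_lt hlt
      rw [Finset.card_insert_of_notMem hvR]
      unfold ell at ih' ⊢
      omega
  obtain ⟨c, hc⟩ := hx.exists_riemann
  haveI := hx.infinite_place45
  have hinf : (Sᶜ : Set (Place K F)).Infinite := hS.infinite_compl
  obtain ⟨R, hRS, hRc⟩ := hinf.exists_subset_card_eq (c - Divisor.degree D).toNat
  have hk := key R fun v hv => hRS hv
  have hdeg : Divisor.degree (D + ∑ v ∈ R, Finsupp.single v (1 : ℤ)) =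
      Divisor.degree D + R.card := by
    rw [map_add, map_sum]
    simp [hx.degree_single]
  have := hc _ (by rw [hdeg, hRc]; have := Int.self_le_toNat (c - Divisor.degree D); omega)
  rw [hdeg] at this
  have hk' : (ell D : ℤ) + R.card ≤ ell (D + ∑ v ∈ R, Finsupp.single v (1 : ℤ)) := by
    exact_mod_cast hk
  omega

/-- Existence of `g` non-special points avoiding a finite set. -/
theorem exists_nonspecial45 [IsAlgClosed K] (hx : IsSepParam K x) (S : Set (Place K F))
    (hS : S.Finite) (g : ℕ) (hg : (g : ℤ) ≤ gR K F) :
    ∃ Q : Fin g → Place K F, Function.Injective Q ∧ (∀ i, Q i ∉ S) ∧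
      ell (∑ i, Finsupp.single (Q i) (1 : ℤ)) = 1 := by
  induction g with
  | zero =>
    refine ⟨Fin.elim0, fun i => i.elim0, fun i => i.elim0, ?_⟩
    simpa using hx.ell_zero
  | succ g ih =>
    obtain ⟨Q, hQinj, hQS, hQ⟩ := ih (by push_cast at hg; omega)
    have hdeg : Divisor.degree (∑ i, Finsupp.single (Q i) (1 : ℤ)) = g := by
      rw [map_sum]
      simp [hx.degree_single]
    obtain ⟨v, hv, hell⟩ := hx.exists_ell_add_single_eq (∑ i, Finsupp.single (Q i) (1 : ℤ))
      (by rw [hdeg, hQ]; push_cast at hg ⊢; omega) (S ∪ Set.range Q)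
      (hS.union (Set.finite_range Q))
    refine ⟨Fin.cons v Q, ?_, ?_, ?_⟩
    · rw [Fin.cons_injective_iff]
      exact ⟨fun h => hv (Or.inr h), hQinj⟩
    · intro i
      refine Fin.cases ?_ (fun j => ?_) i
      · simpa using fun h => hv (Or.inl h)
      · simpa using hQS j
    · rw [Fin.sum_univ_succ]
      simp only [Fin.cons_zero, Fin.cons_succ]
      rw [add_comm, hell, hQ]

theorem mem_range_of_ell_eq_one45 [IsAlgClosed K] (hx : IsSepParam K x) {D : Divisor K F}
    (hD0 : 0 ≤ D) (hD : ell D = 1) {φ : F} (hφ : ∀ v : Place K F, -(D v) ≤ v.ord φ) :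
    φ ∈ Set.range (algebraMap K F) := by
  haveI := hx.finite_L D
  have heq : riemannRochSpace (0 : Divisor K F) = riemannRochSpace D :=
    Submodule.eq_of_le_of_finrank_eq (L_mono hD0) (by
      have h0 := hx.ell_zero
      unfold ell at h0 hD
      rw [h0, hD])
  have hmem : φ ∈ riemannRochSpace D := by
    rw [mem_L_iff]
    right
    intro v
    have := hφ v
    linarith
  rw [← heq, hx.L_zero, Submodule.mem_one] at hmem
  exact hmem

end IsSepParam

end NS

section MapDomain

variable {α β : Type*}

theorem mapDomain_apply_mono (r : α → β) {D D' : α →₀ ℤ} (h : D ≤ D') (Q : β) :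
    D.mapDomain r Q ≤ D'.mapDomain r Q := by
  have h1 := mapDomain_apply_nonneg r (D' - D) Q fun P _ => by
    rw [Finsupp.sub_apply]
    exact sub_nonneg.mpr (h P)
  rw [Finsupp.mapDomain_sub, Finsupp.sub_apply] at h1
  linarith

theorem mapDomain_neg_apply (r : α → β) (D : α →₀ ℤ) (Q : β) :
    (-D).mapDomain r Q = - D.mapDomain r Q := by
  rw [← Finsupp.mapDomain.addMonoidHom_apply r (-D), map_neg, Finsupp.neg_apply,
    Finsupp.mapDomain.addMonoidHom_apply]

end MapDomain

section LP

variable {L F k Fb : Type*} [Field L] [Field F] [Algebra L F] [Field k] [Field Fb] [Algebra k Fb]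

theorem degree_mapDomain_of_deg_eq_one (r : Place L F → Place k Fb)
    (h1 : ∀ P : Place L F, P.deg = 1) (h2 : ∀ Q : Place k Fb, Q.deg = 1) (D : Divisor L F) :
    Divisor.degree (D.mapDomain r) = Divisor.degree D := by
  induction D using Finsupp.induction with
  | zero => simp
  | single_add P n D _ _ ih =>
    rw [Finsupp.mapDomain_add, map_add, map_add, ih, Finsupp.mapDomain_single,
      Divisor.degree_single, Divisor.degree_single, h1, h2]

variable {O : ValuationSubring F} {red : O →+* Fb} {r : Place L F → Place k Fb}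

/-- Constructor of `IsReduction` for function fields with a separating parameter. -/
theorem IsReduction.of_isSepParam [IsAlgClosed L] {x : F} (hx : IsSepParam L x)
    (ker : ∀ y : O, red y = 0 ↔ O.valuation (y : F) < 1)
    (const : ∀ (c : L) (h : algebraMap L F c ∈ O), red ⟨_, h⟩ ∈ Set.range (algebraMap k Fb))
    (scale : ∀ f : F, f ≠ 0 → ∃ c : L, O.valuation f = O.valuation (algebraMap L F c))
    (div_red : ∀ y : O, O.valuation (y : F) = 1 → ∀ D : Divisor L F,
      (∀ P, D P = P.ord (y : F)) → ∀ Q, D.mapDomain r Q = Q.ord (red y)) :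
    IsReduction O red r where
  ker := ker
  const := const
  scale := scale
  div_red := div_red
  exists_div f _ := ⟨dv L f, hx.dv_apply f⟩
  exists_value P _ hf := hx.exists_value P hf

variable [IsAlgClosed L] [IsAlgClosed k]

/-- If the degree of `x` is preserved under reduction, there is no cancellation between zeros
and poles of `x` in the fibres of the reduction map. -/
theorem IsReduction.mapDomain_polarDiv (h : IsReduction O red r) {x : F} (hx : IsSepParam L x)
    (hxb : IsSepParam k (rd O red x))
    (hdeg : Module.finrank k⟮rd O red x⟯ Fb = Module.finrank L⟮x⟯ F) :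
    (polarDiv L x).mapDomain r = polarDiv k (rd O red x) := by
  have hv : O.valuation x = 1 := h.val_eq_one_of_rd_ne_zero hxb.ne_zero
  have hle : polarDiv k (rd O red x) ≤ (polarDiv L x).mapDomain r := by
    intro Q
    rw [hxb.polarDiv_apply, h.ord_rd hv (dv L x) (hx.dv_apply x) Q]
    refine max_le ?_ (mapDomain_apply_nonneg r _ Q fun P _ => polarDiv_nonneg x P)
    rw [← mapDomain_neg_apply]
    exact mapDomain_apply_mono r le_sup_left Q
  have hd : Divisor.degree ((polarDiv L x).mapDomain r - polarDiv k (rd O red x)) = 0 := by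
    rw [map_sub, degree_mapDomain_of_deg_eq_one r hx.deg_eq_one hxb.deg_eq_one,
      hx.degree_polarDiv, hxb.degree_polarDiv, hdeg, sub_self]
  exact sub_eq_zero.mp (hxb.eq_zero_of_degree_eq_zero (sub_nonneg.mpr hle) hd)

theorem IsReduction.reg_of_degree_eq (h : IsReduction O red r) {x : F} (hx : IsSepParam L x)
    (hxb : IsSepParam k (rd O red x))
    (hdeg : Module.finrank k⟮rd O red x⟯ Fb = Module.finrank L⟮x⟯ F)
    {Q : Place k Fb} (hQ : 0 ≤ Q.ord (rd O red x)) (P : Place L F) (hP : r P = Q) :
    0 ≤ P.ord x := by
  have h1 : (polarDiv L x).mapDomain r Q = 0 := by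
    rw [h.mapDomain_polarDiv hx hxb hdeg, hxb.polarDiv_apply, max_eq_right (by omega)]
  have h2 := eq_zero_of_mapDomain_apply_eq_zero r _ Q (fun P _ => polarDiv_nonneg x P) h1 P hP
  rw [hx.polarDiv_apply] at h2
  have := le_max_left (-P.ord x) 0
  omega

/-- Local parameters at the places which are neither poles nor ramified. -/
theorem IsReduction.exists_isLocalParam (h : IsReduction O red r)
    (hlift : ∀ a : k, ∃ c : L, algebraMap L F c ∈ O ∧
      rd O red (algebraMap L F c) = algebraMap k Fb a)
    {x : F} (hx : IsSepParam L x) (hxb : IsSepParam k (rd O red x))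
    (hdeg : Module.finrank k⟮rd O red x⟯ Fb = Module.finrank L⟮x⟯ F)
    {Q : Place k Fb} (hQ : 0 ≤ Q.ord (rd O red x))
    (hQ' : ¬ ∃ a : k, 2 ≤ Q.ord (rd O red x - algebraMap k Fb a)) :
    (∃ T : F, IsLocalParam O red r Q T) ∧ ∃ P, r P = Q := by
  have hv : O.valuation x = 1 := h.val_eq_one_of_rd_ne_zero hxb.ne_zero
  have hxO : x ∈ O := mem_of_val_le hv.le
  obtain ⟨a, ha⟩ := hxb.exists_value Q ((Place.mem_iff_ord_nonneg Q hxb.ne_zero).mpr hQ)
  have ha' : 0 < Q.ord (rd O red x - algebraMap k Fb a) := by
    rcases ha with ha | ha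
    · exfalso
      apply hxb.transcendental
      rw [ha]
      exact isAlgebraic_algebraMap a
    · exact ha
  have ha1 : Q.ord (rd O red x - algebraMap k Fb a) = 1 := by
    push Not at hQ'
    have := hQ' a
    omega
  obtain ⟨c, hcO, hc⟩ := hlift a
  have hrT : rd O red (x - algebraMap L F c) = rd O red x - algebraMap k Fb a := by
    rw [rd_sub hxO hcO, hc]
  have hT : IsLocalParam O red r Q (x - algebraMap L F c) :=
    { mem := O.sub_mem hxO hcO
      reg := fun P hP => ord_sub_const_nonneg P (h.reg_of_degree_eq hx hxb hdeg hQ P hP) c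
      ord := by rw [hrT, ha1] }
  refine ⟨⟨_, hT⟩, ?_⟩
  by_contra hno
  push Not at hno
  have hvT : O.valuation (x - algebraMap L F c) = 1 :=
    h.val_eq_one_of_rd_ne_zero (ne_zero_of_ord_ne_zero Q (by rw [hT.ord]; norm_num))
  have := h.ord_rd_eq_zero hvT Q fun P hP => absurd hP (hno P)
  rw [hT.ord] at this
  norm_num at this

open Classical in
/-- **Injectivity of reduction on torsion prime to the residue characteristic**: good reduction
form.  `x` is a separating parameter on both sides whose degree is preserved, and the genus does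
not drop. -/
theorem isPrincipal_of_torsion_of_genus_le (h : IsReduction O red r)
    (hlift : ∀ a : k, ∃ c : L, algebraMap L F c ∈ O ∧
      rd O red (algebraMap L F c) = algebraMap k Fb a)
    {x : F} (hx : IsSepParam L x) (hxb : IsSepParam k (rd O red x))
    (hdeg : Module.finrank k⟮rd O red x⟯ Fb = Module.finrank L⟮x⟯ F)
    (hgenus : gR L F ≤ gR k Fb)
    {m : ℕ} (hm : O.valuation (m : F) = 1)
    (D : Divisor L F) (hD0 : Divisor.degree D = 0) (hmD : Divisor.IsPrincipal (m • D))
    (hrD : Divisor.IsPrincipal (D.mapDomain r)) : Divisor.IsPrincipal D := by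
  obtain ⟨g, hg⟩ := Int.eq_ofNat_of_zero_le hx.gR_nonneg
  set S : Set (Place k Fb) := {Q | Q.ord (rd O red x) < 0} ∪
    {Q | ∃ a : k, 2 ≤ Q.ord (rd O red x - algebraMap k Fb a)} with hS
  have hSfin : S.Finite := hxb.finite_poles.union hxb.finite_ramified
  obtain ⟨Q, hQinj, hQS, hQell⟩ := hxb.exists_nonspecial45 S hSfin g (by rw [← hg]; exact hgenus)
  have hgood : ∀ Q' : Place k Fb, Q' ∉ S →
      (∃ T : F, IsLocalParam O red r Q' T) ∧ ∃ P, r P = Q' := by
    intro Q' hQ'
    refine h.exists_isLocalParam hlift hx hxb hdeg ?_ fun hh => hQ' (Or.inr hh)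
    by_contra hneg
    exact hQ' (Or.inl (not_le.mp hneg))
  choose T hT using fun i => (hgood (Q i) (hQS i)).1
  choose Pt hPt using fun i => (hgood (Q i) (hQS i)).2
  have hcomp : r ∘ Pt = Q := funext hPt
  haveI := hxb.infinite_place45
  obtain ⟨Q0, hQ0⟩ := (hSfin.union (Set.finite_range Q)).infinite_compl.nonempty
  obtain ⟨P0, hP0⟩ := (hgood Q0 fun hh => hQ0 (Or.inl hh)).2
  refine isPrincipal_of_torsion h (g := g) ?_ hx.deg_eq_one Pt (by rw [hcomp]; exact hQinj) T
    (fun i => by rw [hPt i]; exact hT i) ?_ P0 (by
      rw [hcomp, hP0]; exact fun hh => hQ0 (Or.inr hh)) hm D hD0 hmD hrD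
  · intro D' hD'
    obtain ⟨f, hf, hf0⟩ := hx.exists_ne_zero_mem_L (A := D') (by rw [hD', hg])
    exact ⟨f, hf0, (mem_L_iff_of_ne_zero hf0).mp hf⟩
  · intro φ hφ
    rw [hcomp] at hφ
    refine hxb.mem_range_of_ell_eq_one45 (D := ∑ i, Finsupp.single (Q i) (1 : ℤ)) ?_ hQell ?_
    · intro Q'
      rw [sum_single_apply_of_injective Q hQinj]
      simp only [Finsupp.coe_zero, Pi.zero_apply]
      split_ifs <;> norm_num
    · intro Q'
      rw [sum_single_apply_of_injective Q hQinj]
      exact hφ Q'

end LP

end Fermat.Agent.RED
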