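import Mathlib
import Fermat.Prelude.Def_AlgebraicCurve_Correspondence
import Fermat.Agent.RED.Deuring.Basic

/-!
# RED / [PULL] : the map `r_* ∘ φ^* : Pic0 (F) → Pic0 (Fb')`

`φ : F →ₐ[K] F'` an integral extension of function fields, `r : Place K F' → Place k Fb'` a
reduction map of places which preserves degrees and sends principal divisors to principal divisors.
-/

set_option autoImplicit false

open AlgebraicCurve

namespace Fermat.Agent.RED.Pull

noncomputable section

section Push

variable {K F' k Fb : Type*} [Field K] [Field F'] [Algebra K F'] [Field k] [Field Fb] [Algebra k Fb]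
variable (r : Place K F' → Place k Fb)

/-- `r_*` on divisors. -/
def pushDiv : Divisor K F' →+ Divisor k Fb := Finsupp.mapDomain.addMonoidHom r

@[simp] theorem pushDiv_apply (D : Divisor K F') : pushDiv r D = Finsupp.mapDomain r D := rfl

theorem pushDiv_single (P : Place K F') (n : ℤ) :
    pushDiv r (Finsupp.single P n) = Finsupp.single (r P) n := Finsupp.mapDomain_single

variable {r}

theorem degree_pushDiv (hdeg : ∀ P, (r P).deg = P.deg) (D : Divisor K F') :
    Divisor.degree (pushDiv r D) = Divisor.degree D := by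
  induction D using Finsupp.induction_linear with
  | zero => simp
  | add D E hD hE => rw [map_add, map_add, map_add, hD, hE]
  | single P n => rw [pushDiv_single, Divisor.degree_single, Divisor.degree_single, hdeg]

theorem pushDiv_nonneg {D : Divisor K F'} (hD : 0 ≤ D) : 0 ≤ pushDiv r D := by
  classical
  intro Q
  rw [pushDiv_apply, Finsupp.mapDomain, Finsupp.sum, Finsupp.finset_sum_apply]
  refine Finset.sum_nonneg fun P _ => ?_
  rw [Finsupp.single_apply]
  split_ifs
  · exact hD P
  · exact le_rfl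

/-- (P1) in the shape of `DeuringHyp.exists_placeMap` implies that `r_*` preserves principal
divisors. -/
theorem pushDiv_mem_principal (R : RedData K F' k Fb)
    (hP1 : ∀ x : R.O, R.red x ≠ 0 → ∀ D : Divisor K F', (∀ v, D v = v.ord (x : F')) →
      ∀ Q, (D.mapDomain r) Q = Q.ord (R.red x))
    {D : Divisor K F'} (hD : D ∈ Divisor.principal (K := K) (F := F')) :
    pushDiv r D ∈ Divisor.principal (K := k) (F := Fb) := by
  obtain ⟨f, hf, hDf⟩ := hD
  obtain ⟨c, hc, hne⟩ := R.exists_scale f hf
  have hc0 : c ≠ 0 := by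
    rintro rfl
    apply hne
    have : (⟨algebraMap K F' 0 * f, hc⟩ : R.O) = 0 := Subtype.ext (by simp)
    rw [this, map_zero]
  refine ⟨R.red ⟨algebraMap K F' c * f, hc⟩, hne, fun Q => ?_⟩
  refine hP1 _ hne D (fun v => ?_) Q
  rw [hDf v]
  show v.ord f = v.ord (algebraMap K F' c * f)
  rw [v.ord_mul (by simpa using hc0) hf, Fermat.Agent.S24.Place.ord_algebraMap, zero_add]

end Push

section Pull

variable {K F F' k Fb : Type*} [Field K] [Field F] [Field F'] [Algebra K F] [Algebra K F']
  [Field k] [Field Fb] [Algebra k Fb] [HasPrincipalDivisors K F']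
variable (φ : F →ₐ[K] F') (hφ : φ.toRingHom.IsIntegral) (r : Place K F' → Place k Fb)

/-- `r_* ∘ φ^*` on divisors. -/
def redDiv : Divisor K F →+ Divisor k Fb := (pushDiv r).comp (Divisor.pullbackAlong φ hφ)

theorem redDiv_apply (D : Divisor K F) :
    redDiv φ hφ r D = Finsupp.mapDomain r (Divisor.pullbackAlong φ hφ D) := rfl

theorem redDiv_single (v : Place K F) (n : ℤ) :
    redDiv φ hφ r (Finsupp.single v n)
      = ∑ W ∈ Place.fiberAlong φ hφ v, Finsupp.single (r W) (n * W.ramificationIndexAlong φ) := by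
  rw [redDiv_apply, Divisor.pullbackAlong_single, ← pushDiv_apply, map_sum]
  exact Finset.sum_congr rfl fun W _ => pushDiv_single r W _

variable {r}

theorem degree_redDiv (hFI : FundamentalIdentityAlong K φ hφ) (hdeg : ∀ P, (r P).deg = P.deg)
    (D : Divisor K F) :
    Divisor.degree (redDiv φ hφ r D) = (finrankAlong K φ : ℤ) * Divisor.degree D := by
  rw [redDiv, AddMonoidHom.comp_apply, degree_pushDiv hdeg, Divisor.degree_pullbackAlong φ hφ hFI]

theorem redDiv_single_nonneg (v : Place K F) : 0 ≤ redDiv φ hφ r (Finsupp.single v 1) := by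
  classical
  rw [redDiv_single]
  refine Finset.sum_nonneg fun W _ => ?_
  intro Q
  rw [Finsupp.single_apply]
  split_ifs
  · simp
  · exact le_rfl

theorem redDiv_mem_degZero (hFI : FundamentalIdentityAlong K φ hφ)
    (hdeg : ∀ P, (r P).deg = P.deg) {D : Divisor K F}
    (hD : D ∈ Divisor.degZero (K := K) (F := F)) :
    redDiv φ hφ r D ∈ Divisor.degZero (K := k) (F := Fb) := by
  rw [Divisor.mem_degZero, degree_redDiv φ hφ hFI hdeg, Divisor.mem_degZero.mp hD, mul_zero]

theorem redDiv_mem_principal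
    (hprin : ∀ D ∈ Divisor.principal (K := K) (F := F'),
      pushDiv r D ∈ Divisor.principal (K := k) (F := Fb))
    {D : Divisor K F} (hD : D ∈ Divisor.principal (K := K) (F := F)) :
    redDiv φ hφ r D ∈ Divisor.principal (K := k) (F := Fb) :=
  hprin _ (Divisor.isPrincipal_pullbackAlong φ hφ hD)

/-- The pull back of `div f` is `div (φ f)`. -/
theorem pullbackAlong_isDiv {D : Divisor K F} {f : F} (hD : ∀ v, D v = v.ord f) :
    ∀ w, Divisor.pullbackAlong φ hφ D w = w.ord (φ f) := fun w => by
  rw [Divisor.pullbackAlong_apply, hD, Place.ord_restrictAlong φ hφ]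

variable (r)

/-- `r_* ∘ φ^*` on degree zero divisors. -/
def redDegZero (hFI : FundamentalIdentityAlong K φ hφ) (hdeg : ∀ P, (r P).deg = P.deg) :
    Divisor.degZero (K := K) (F := F) →+ Divisor.degZero (K := k) (F := Fb) :=
  ((redDiv φ hφ r).domRestrict _).codRestrict _ fun D => redDiv_mem_degZero φ hφ hFI hdeg D.2

@[simp]
theorem coe_redDegZero (hFI : FundamentalIdentityAlong K φ hφ) (hdeg : ∀ P, (r P).deg = P.deg)
    (D : Divisor.degZero (K := K) (F := F)) :
    (redDegZero φ hφ r hFI hdeg D : Divisor k Fb) = redDiv φ hφ r (D : Divisor K F) := rfl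

/-- **[PULL]** `r_* ∘ φ^* : Pic0 F → Pic0 Fb'`. -/
def redPic0 (hFI : FundamentalIdentityAlong K φ hφ) (hdeg : ∀ P, (r P).deg = P.deg)
    (hprin : ∀ D ∈ Divisor.principal (K := K) (F := F'),
      pushDiv r D ∈ Divisor.principal (K := k) (F := Fb)) :
    Pic0 K F →+ Pic0 k Fb :=
  QuotientAddGroup.map _ _ (redDegZero φ hφ r hFI hdeg) (by
    rintro ⟨D, hD0⟩ hD
    simp only [AddSubgroup.mem_addSubgroupOf] at hD ⊢
    exact redDiv_mem_principal φ hφ hprin hD)

theorem redPic0_mk (hFI : FundamentalIdentityAlong K φ hφ) (hdeg : ∀ P, (r P).deg = P.deg)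
    (hprin : ∀ D ∈ Divisor.principal (K := K) (F := F'),
      pushDiv r D ∈ Divisor.principal (K := k) (F := Fb))
    (D : Divisor.degZero (K := K) (F := F)) :
    redPic0 φ hφ r hFI hdeg hprin (Pic0.mk D) = Pic0.mk (redDegZero φ hφ r hFI hdeg D) := rfl

/-- `red x = 0` iff the divisor `r_* φ^* D` is principal. -/
theorem redPic0_mk_eq_zero_iff (hFI : FundamentalIdentityAlong K φ hφ)
    (hdeg : ∀ P, (r P).deg = P.deg)
    (hprin : ∀ D ∈ Divisor.principal (K := K) (F := F'),
      pushDiv r D ∈ Divisor.principal (K := k) (F := Fb))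
    (D : Divisor.degZero (K := K) (F := F)) :
    redPic0 φ hφ r hFI hdeg hprin (Pic0.mk D) = 0 ↔
      redDiv φ hφ r (D : Divisor K F) ∈ Divisor.principal (K := k) (F := Fb) := by
  rw [redPic0_mk, Pic0.mk, QuotientAddGroup.eq_zero_iff, AddSubgroup.mem_addSubgroupOf,
    coe_redDegZero]

end Pull

section MkLemmas

variable {K F : Type*} [Field K] [Field F] [Algebra K F]

theorem mk_eq_zero_iff (D : Divisor.degZero (K := K) (F := F)) :
    Pic0.mk D = 0 ↔ (D : Divisor K F) ∈ Divisor.principal (K := K) (F := F) := by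
  rw [Pic0.mk, QuotientAddGroup.eq_zero_iff, AddSubgroup.mem_addSubgroupOf]

theorem mk_eq_mk_iff (D E : Divisor.degZero (K := K) (F := F)) :
    Pic0.mk D = Pic0.mk E ↔
      (D : Divisor K F) - (E : Divisor K F) ∈ Divisor.principal (K := K) (F := F) := by
  rw [← sub_eq_zero, show Pic0.mk D - Pic0.mk E = Pic0.mk (D - E) from rfl, mk_eq_zero_iff]
  rfl

theorem mk_nsmul (n : ℕ) (D : Divisor.degZero (K := K) (F := F)) :
    Pic0.mk (n • D) = n • Pic0.mk D := rfl

end MkLemmas

end

end Fermat.Agent.RED.Pull
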