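import Fermat.Agent.RED.QEP0Abstract
import Fermat.Agent.S24.CharpolyAlt
import Fermat.Agent.S24.DegreeInst
import Fermat.Agent.S24.CuspFinal

/-!
# The `q`-expansion principle in characteristic zero

A holomorphic `Γ₀(N)`-invariant function of moderate growth at all cusps whose `q`-expansion has
coefficients in `Kb = \bar ℚ` is (the image of) an element of the function field `F_N`.
-/

set_option autoImplicit false

namespace Fermat.Agent.RED

open Fermat.Agent.S24 ModularCurve IntermediateField CongruenceSubgroup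
open scoped MatrixGroups

noncomputable section

/-- `toMer 1` as an algebra hom. -/
def toMerAlg : MerPer 1 →ₐ[ℂ] Mer :=
  { toMer 1 with commutes' := fun c => toMer_const 1 c }

@[simp] theorem toMerAlg_apply (u : MerPer 1) : toMerAlg u = toMer 1 u := rfl

/-- `toLaurent 1` as an algebra hom. -/
def toLaurentAlg : MerPer 1 →ₐ[ℂ] LaurentSeries ℂ :=
  { toLaurent 1 with
    commutes' := fun c => by
      show toLaurent 1 (algebraMap ℂ (MerPer 1) c) = _
      rw [toLaurent_const, algebraMap_laurentSeries_eq_single]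
      rfl }

@[simp] theorem toLaurentAlg_apply (u : MerPer 1) : toLaurentAlg u = toLaurent 1 u := rfl

variable (N : ℕ) [NeZero N]

theorem charpoly_coeff_of_mem_RN {f : Hol} (hf : f ∈ CPAlt.RN N) (i : ℕ) :
    ∃ p : Polynomial ℂ, (∏ x : XN N, (Polynomial.X -
      Polynomial.C (actMer (Quotient.out x) (algebraMap Hol Mer f)))).coeff i
      = Polynomial.aeval (algebraMap Hol Mer (jdHol 1)) p := by
  obtain ⟨p, hp⟩ := CPAlt.exists_coeff_cpHol_eq hf i
  refine ⟨p, ?_⟩
  have h : (∏ x : XN N, (Polynomial.X -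
      Polynomial.C (actMer (Quotient.out x) (algebraMap Hol Mer f)))) =
      (CPAlt.cpHol N f).map (algebraMap Hol Mer) := by
    unfold CPAlt.cpHol
    rw [Polynomial.map_prod]
    refine Finset.prod_congr rfl fun x _ => ?_
    rw [Polynomial.map_sub, Polynomial.map_X, Polynomial.map_C, ← actMer_algebraMap]
  rw [h, Polynomial.coeff_map, hp]
  exact (Polynomial.aeval_algHom_apply (IsScalarTower.toAlgHom ℂ Hol Mer) (jdHol 1) p).symm

/-- **`q`-expansion principle (characteristic zero).** -/
theorem mem_bar_of_mem_RN (h : Hol) (hh : h ∈ CPAlt.RN N) (u : MerPer 1)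
    (hu : toMer 1 u = algebraMap Hol Mer h) (s : LaurentSeries Kb)
    (hs : toLaurent 1 u = coeffMap iotaK.toRingHom s) : s ∈ modularFunctionFieldBar N := by
  classical
  obtain ⟨hfd, hdeg⟩ := degree_of_charpolyCoeff N (CPAlt.charpolyCoeff N)
  let S : Finset Mer := insert (algebraMap Hol Mer h) ((finite_genSetF N).toFinset.image (ThetaMer N))
  have hS : Algebra.adjoin ℂ (S : Set Mer) ≤ (CPAlt.RN N).map (IsScalarTower.toAlgHom ℂ Hol Mer) := by
    rw [Algebra.adjoin_le_iff]
    intro z hz
    simp only [S, Finset.coe_insert, Finset.coe_image, Set.Finite.coe_toFinset,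
      Set.mem_insert_iff, Set.mem_image] at hz
    rcases hz with rfl | ⟨_, ⟨d, hd0, hd, rfl⟩, rfl⟩
    · exact ⟨h, hh, rfl⟩
    · exact ⟨jdHol d, CPAlt.jdHol_mem_RN hd, (ThetaMer_jBar N d hd).symm⟩
  have hJ : toMerAlg (Theta iotaK.toRingHom (genInRange N) (jF N)) = algebraMap Hol Mer (jdHol 1) :=
    ThetaMer_jF N
  obtain ⟨f, hf⟩ := mem_of_conjugates (modularFunctionFieldBar N).val (jF N) iotaK.toRingHom
    toMerAlg toLaurentAlg (transcendental_jF N) (Theta iotaK.toRingHom (genInRange N))
    (fun f => toLaurent_Theta _ _ f) S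
    (fun x : XN N => (actMer (Quotient.out x)).toAlgHom)
    ((1 : SL(2, ℤ)) : XN N)
    (by
      intro θ hθ
      obtain ⟨f, hf, rfl⟩ := hS hθ
      obtain ⟨γ, hγ⟩ := QuotientGroup.mk_out_eq_mul (Gamma0 N) (1 : SL(2, ℤ))
      show actMer (Quotient.out ((1 : SL(2, ℤ)) : XN N)) (algebraMap Hol Mer f) = algebraMap Hol Mer f
      rw [actMer_algebraMap, hγ, one_mul, hf.1 γ γ.2])
    (by
      intro θ hθ i
      obtain ⟨f, hf, rfl⟩ := hS hθ
      rw [hJ]
      exact charpoly_coeff_of_mem_RN N hf i)
    (by rw [hdeg, Nat.card_eq_fintype_card])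
    (by
      intro f
      rw [hJ]
      show ThetaMer N f ∈ (IntermediateField.adjoin ℂ⟮algebraMap Hol Mer (jdHol 1)⟯
        (S : Set Mer)).toSubfield
      apply CuspF.mem_of_gen
      · intro a
        show ThetaMer N (algebraMap Kb (FN N) a) ∈ IntermediateField.adjoin _ (S : Set Mer)
        rw [ThetaMer_algebraMap,
          IsScalarTower.algebraMap_apply ℂ ℂ⟮algebraMap Hol Mer (jdHol 1)⟯ Mer]
        exact IntermediateField.algebraMap_mem _ _
      · intro d _ hd
        show ThetaMer N (jBar N d hd) ∈ IntermediateField.adjoin _ (S : Set Mer)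
        apply IntermediateField.subset_adjoin
        simp only [S, Finset.coe_insert, Finset.coe_image, Set.Finite.coe_toFinset]
        exact Or.inr ⟨jBar N d hd, ⟨d, ‹_›, hd, rfl⟩, rfl⟩)
    u (by rw [toMerAlg_apply, hu]; simp [S]) s hs
  rw [← hf]
  exact f.2

/-- The element of `F_N` attached to a function in `RN N` with `Kb`-rational `q`-expansion. -/
theorem ThetaMer_eq_of_mem_RN (h : Hol) (hh : h ∈ CPAlt.RN N) (u : MerPer 1)
    (hu : toMer 1 u = algebraMap Hol Mer h) (s : LaurentSeries Kb)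
    (hs : toLaurent 1 u = coeffMap iotaK.toRingHom s) :
    ThetaMer N ⟨s, mem_bar_of_mem_RN N h hh u hu s hs⟩ = algebraMap Hol Mer h := by
  rw [← hu, ThetaMer, RingHom.comp_apply]
  congr 1
  rw [Theta_eq_iff]
  exact hs.symm

end

end Fermat.Agent.RED
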