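import Mathlib
import Fermat.Prelude.Def_ModularCurve_X0ModL
import Fermat.Prelude.Def_AlgebraicCurve_BaseChangeGalois

/-!
# RED / [FROBk] : coefficient automorphisms and the coefficient Frobenius on `Fb_N ⊆ k((q))`

* `coeffAut k N : (k ≃+* k) →* SemilinearAut k (modularFunctionFieldFullC k N)`: every ring
  automorphism of the constant field acts on the mod `ℓ` modular function field through the
  coefficients of `q`-expansions.  Through the Prelude `SemilinearAut` API it acts on places,
  divisors and `Pic0`.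
* `pow_char_eq`: `x ^ ℓ = (σ x)(q ^ ℓ)` in `k((q))`, `σ` the coefficient Frobenius.
* `Fr`, `Ver` on `Pic0`, `Ver ∘ Fr = ℓ`; divisors of `σ u` and of `u(q ^ ℓ)`.
-/

set_option autoImplicit false

open ModularCurve AlgebraicCurve HahnSeries

namespace Fermat.Agent.RED.FrobK

noncomputable section

section CoeffAut

variable (k : Type*) [Field k] (N : ℕ)

variable {k N} in
/-- The mod `ℓ` modular function field is stable under every endomorphism of the constants. -/
theorem coeffMap_mem_fullC (τ : k →+* k) {x : LaurentSeries k}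
    (hx : x ∈ modularFunctionFieldFullC k N) :
    coeffMap τ x ∈ modularFunctionFieldFullC k N := by
  rw [modularFunctionFieldFullC] at hx
  induction hx using IntermediateField.adjoin_induction with
  | mem y hy =>
      obtain ⟨d, hd, hdN, rfl⟩ := hy
      rw [coeffMap_qExpand, coeffMap_jqModC]
      exact jqModCd_mem_full k N hdN
  | algebraMap a =>
      rw [coeffMap_algebraMap]
      exact (modularFunctionFieldFullC k N).algebraMap_mem _
  | add x y _ _ hx hy => rw [map_add]; exact add_mem hx hy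
  | inv x _ hx => rw [map_inv₀]; exact inv_mem hx
  | mul x y _ _ hx hy => rw [map_mul]; exact mul_mem hx hy

/-- The ring automorphism of `Fb_N` induced by an automorphism of the constant field. -/
def coeffRingAut (τ : k ≃+* k) :
    modularFunctionFieldFullC k N ≃+* modularFunctionFieldFullC k N where
  toFun x := ⟨coeffMap (τ : k →+* k) (x : LaurentSeries k), coeffMap_mem_fullC _ x.2⟩
  invFun x := ⟨coeffMap (τ.symm : k →+* k) (x : LaurentSeries k), coeffMap_mem_fullC _ x.2⟩
  left_inv x := Subtype.ext <| by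
    show coeffMap (τ.symm : k →+* k) (coeffMap (τ : k →+* k) (x : LaurentSeries k))
      = (x : LaurentSeries k)
    rw [coeffMap_coeffMap,
      coeffMap_congr (g := RingHom.id k) (RingHom.ext fun a => τ.symm_apply_apply a)
        (x : LaurentSeries k), coeffMap_id]
  right_inv x := Subtype.ext <| by
    show coeffMap (τ : k →+* k) (coeffMap (τ.symm : k →+* k) (x : LaurentSeries k))
      = (x : LaurentSeries k)
    rw [coeffMap_coeffMap,
      coeffMap_congr (g := RingHom.id k) (RingHom.ext fun a => τ.apply_symm_apply a)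
        (x : LaurentSeries k), coeffMap_id]
  map_mul' x y :=
    Subtype.ext (map_mul (coeffMap (τ : k →+* k)) (x : LaurentSeries k) (y : LaurentSeries k))
  map_add' x y :=
    Subtype.ext (map_add (coeffMap (τ : k →+* k)) (x : LaurentSeries k) (y : LaurentSeries k))

@[simp]
theorem coe_coeffRingAut_apply (τ : k ≃+* k) (x : modularFunctionFieldFullC k N) :
    (coeffRingAut k N τ x : LaurentSeries k) = coeffMap (τ : k →+* k) (x : LaurentSeries k) :=
  rfl

theorem coeffRingAut_algebraMap (τ : k ≃+* k) (a : k) :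
    coeffRingAut k N τ (algebraMap k (modularFunctionFieldFullC k N) a)
      = algebraMap k (modularFunctionFieldFullC k N) (τ a) :=
  Subtype.ext (coeffMap_algebraMap (τ : k →+* k) a)

/-- Automorphisms of the constant field act semilinearly on `Fb_N`. -/
def coeffAut : (k ≃+* k) →* SemilinearAut k (modularFunctionFieldFullC k N) where
  toFun τ := ⟨(coeffRingAut k N τ, τ), fun a => coeffRingAut_algebraMap k N τ a⟩
  map_one' := by
    refine Subtype.ext (Prod.ext (RingEquiv.ext fun x => Subtype.ext ?_) rfl)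
    show coeffMap ((1 : k ≃+* k) : k →+* k) (x : LaurentSeries k) = (x : LaurentSeries k)
    rw [show ((1 : k ≃+* k) : k →+* k) = RingHom.id k from RingHom.ext fun _ => rfl,
      coeffMap_id]
  map_mul' σ τ := by
    refine Subtype.ext (Prod.ext (RingEquiv.ext fun x => Subtype.ext ?_) rfl)
    show coeffMap ((σ * τ : k ≃+* k) : k →+* k) (x : LaurentSeries k)
      = coeffMap (σ : k →+* k) (coeffMap (τ : k →+* k) (x : LaurentSeries k))
    rw [coeffMap_coeffMap]
    exact coeffMap_congr (RingHom.ext fun _ => rfl) _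

@[simp]
theorem toRingAut_coeffAut (τ : k ≃+* k) :
    SemilinearAut.toRingAut (coeffAut k N τ) = coeffRingAut k N τ := rfl

@[simp]
theorem baseAut_coeffAut (τ : k ≃+* k) :
    SemilinearAut.baseAut (coeffAut k N τ) = τ := rfl

theorem coe_coeffAut_smul (τ : k ≃+* k) (x : modularFunctionFieldFullC k N) :
    ((coeffAut k N τ • x : modularFunctionFieldFullC k N) : LaurentSeries k)
      = coeffMap (τ : k →+* k) (x : LaurentSeries k) := rfl

theorem coe_coeffAut_inv_smul (τ : k ≃+* k) (x : modularFunctionFieldFullC k N) :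
    (((coeffAut k N τ)⁻¹ • x : modularFunctionFieldFullC k N) : LaurentSeries k)
      = coeffMap (τ.symm : k →+* k) (x : LaurentSeries k) := rfl

end CoeffAut

section Abstract

/-! ### Divisors of `g • u`, in the Prelude language -/

variable {K F : Type*} [Field K] [Field F] [Algebra K F]

/-- `ord_Q (g • u) = ord_{g⁻¹ Q} u`. -/
theorem ord_smul' (g : SemilinearAut K F) (Q : Place K F) (u : F) :
    Q.ord (g • u) = (g⁻¹ • Q).ord u := by
  have h := SemilinearAut.ord_smul g (g⁻¹ • Q) u
  rwa [smul_inv_smul] at h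

/-- `ord_Q (g⁻¹ • u) = ord_{g Q} u`. -/
theorem ord_inv_smul (g : SemilinearAut K F) (Q : Place K F) (u : F) :
    Q.ord (g⁻¹ • u) = (g • Q).ord u := by
  rw [ord_smul', inv_inv]

/-- `div (g • u) = g • div u`. -/
theorem isDiv_smul (g : SemilinearAut K F) {D : Divisor K F} {u : F}
    (hD : ∀ Q, D Q = Q.ord u) : ∀ Q, (g • D) Q = Q.ord (g • u) := fun Q => by
  rw [SemilinearAut.divisor_smul_apply, hD, ord_smul']

/-- The endomorphism of `Divisor` given by a semilinear automorphism. -/
def divHom (g : SemilinearAut K F) : Divisor K F →+ Divisor K F :=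
  DistribSMul.toAddMonoidHom (Divisor K F) g

@[simp] theorem divHom_apply (g : SemilinearAut K F) (D : Divisor K F) : divHom g D = g • D := rfl

/-- The endomorphism of `Pic0` given by a semilinear automorphism. -/
def picHom (g : SemilinearAut K F) : Pic0 K F →+ Pic0 K F :=
  DistribSMul.toAddMonoidHom (Pic0 K F) g

@[simp] theorem picHom_apply (g : SemilinearAut K F) (x : Pic0 K F) : picHom g x = g • x := rfl

theorem picHom_mk (g : SemilinearAut K F) (D : Divisor.degZero (K := K) (F := F)) :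
    picHom g (Pic0.mk D) = Pic0.mk (SemilinearAut.degZeroSMulHom g D) := rfl

end Abstract

section Frobenius

variable (k : Type*) [Field k] (ℓ : ℕ) [Fact ℓ.Prime] [CharP k ℓ]

instance : NeZero ℓ := ⟨(Fact.out : ℓ.Prime).ne_zero⟩

omit [CharP k ℓ] in
theorem qExpand_ofPowerSeries (p : PowerSeries k) :
    qExpand k ℓ (HahnSeries.ofPowerSeries ℤ k p)
      = HahnSeries.ofPowerSeries ℤ k (PowerSeries.expand ℓ (NeZero.ne ℓ) p) := by
  ext m
  by_cases hm : (ℓ : ℤ) ∣ m
  · obtain ⟨c, rfl⟩ := hm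
    rw [qExpand_coeff_mul]
    rcases le_or_gt 0 c with hc | hc
    · lift c to ℕ using hc
      rw [HahnSeries.ofPowerSeries_apply_coeff,
        show (ℓ : ℤ) * (c : ℤ) = ((ℓ * c : ℕ) : ℤ) by push_cast; ring,
        HahnSeries.ofPowerSeries_apply_coeff, PowerSeries.coeff_expand_mul]
    · have hℓ : (0 : ℤ) < ℓ := by exact_mod_cast (Fact.out : ℓ.Prime).pos
      rw [ofPowerSeries_coeff_of_neg _ hc, ofPowerSeries_coeff_of_neg _ (by nlinarith)]
  · rw [qExpand_coeff_of_not_dvd ℓ _ hm]
    rcases le_or_gt 0 m with hc | hc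
    · lift m to ℕ using hc
      rw [HahnSeries.ofPowerSeries_apply_coeff, PowerSeries.coeff_expand_of_not_dvd]
      exact fun h => hm (by exact_mod_cast h)
    · rw [ofPowerSeries_coeff_of_neg _ hc]

/-- **Frobenius on `q`-expansions**: `x ^ ℓ = (σ x)(q ^ ℓ)`. -/
theorem pow_char_eq (x : LaurentSeries k) :
    x ^ ℓ = qExpand k ℓ (coeffMap (frobenius k ℓ) x) := by
  have hx := LaurentSeries.single_order_mul_powerSeriesPart x
  set p := LaurentSeries.powerSeriesPart x with hp
  rw [← hx, mul_pow, map_mul, map_mul, coeffMap_single, qExpand_single, HahnSeries.single_pow,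
    map_one, one_pow, nsmul_eq_mul]
  congr 1
  have h1 : (HahnSeries.ofPowerSeries ℤ k p) ^ ℓ = HahnSeries.ofPowerSeries ℤ k (p ^ ℓ) :=
    (map_pow _ _ _).symm
  change (HahnSeries.ofPowerSeries ℤ k p) ^ ℓ = _
  rw [h1, coeffMap_ofPowerSeries, qExpand_ofPowerSeries]
  congr 1
  have h2 := MvPowerSeries.map_frobenius_expand (σ := Unit) (R := k) ℓ (NeZero.ne ℓ) (f := p)
  rw [← PowerSeries.map_expand]
  exact h2.symm

variable [PerfectRing k ℓ]

/-- `u(q ^ ℓ) = (σ⁻¹ u) ^ ℓ`. -/
theorem qExpand_char_eq (x : LaurentSeries k) :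
    qExpand k ℓ x = (coeffMap ((frobeniusEquiv k ℓ).symm : k →+* k) x) ^ ℓ := by
  rw [pow_char_eq, coeffMap_coeffMap,
    coeffMap_congr (g := RingHom.id k)
      (RingHom.ext fun a => by simp) x, coeffMap_id]

variable (N : ℕ)

/-- The coefficient Frobenius as a semilinear automorphism of `Fb_N`. -/
def frobAut : SemilinearAut k (modularFunctionFieldFullC k N) :=
  coeffAut k N (frobeniusEquiv k ℓ)

theorem coe_frobAut_smul (x : modularFunctionFieldFullC k N) :
    ((frobAut k ℓ N • x : modularFunctionFieldFullC k N) : LaurentSeries k)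
      = coeffMap (frobenius k ℓ) (x : LaurentSeries k) := rfl

/-- `Fb_N` is stable under `q ↦ q ^ ℓ`. -/
theorem qExpand_char_mem {x : LaurentSeries k} (hx : x ∈ modularFunctionFieldFullC k N) :
    qExpand k ℓ x ∈ modularFunctionFieldFullC k N := by
  rw [qExpand_char_eq]
  exact pow_mem (coeffMap_mem_fullC _ hx) ℓ

/-- `u ↦ u(q ^ ℓ)` on `Fb_N`. -/
def vMap (u : modularFunctionFieldFullC k N) : modularFunctionFieldFullC k N :=
  ⟨qExpand k ℓ (u : LaurentSeries k), qExpand_char_mem k ℓ N u.2⟩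

@[simp] theorem coe_vMap (u : modularFunctionFieldFullC k N) :
    (vMap k ℓ N u : LaurentSeries k) = qExpand k ℓ (u : LaurentSeries k) := rfl

theorem vMap_eq (u : modularFunctionFieldFullC k N) :
    vMap k ℓ N u = ((frobAut k ℓ N)⁻¹ • u) ^ ℓ :=
  Subtype.ext (qExpand_char_eq k ℓ (u : LaurentSeries k))

theorem pow_char_eq_vMap (u : modularFunctionFieldFullC k N) :
    u ^ ℓ = vMap k ℓ N (frobAut k ℓ N • u) :=
  Subtype.ext (pow_char_eq k ℓ (u : LaurentSeries k))

/-- `ord_Q u(q ^ ℓ) = ℓ * ord_{σ Q} u`. -/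
theorem ord_vMap (Q : Place k (modularFunctionFieldFullC k N))
    (u : modularFunctionFieldFullC k N) :
    Q.ord (vMap k ℓ N u) = ℓ * (frobAut k ℓ N • Q).ord u := by
  rw [vMap_eq, ← zpow_natCast, Place.ord_zpow, ord_inv_smul]

/-- Frobenius on divisors of `Fb_N`. -/
def FrDiv : Divisor k (modularFunctionFieldFullC k N) →+
    Divisor k (modularFunctionFieldFullC k N) := divHom (frobAut k ℓ N)

/-- Verschiebung on divisors of `Fb_N`: `ℓ σ_*⁻¹`. -/
def VerDiv : Divisor k (modularFunctionFieldFullC k N) →+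
    Divisor k (modularFunctionFieldFullC k N) := ℓ • divHom (frobAut k ℓ N)⁻¹

theorem FrDiv_apply (D : Divisor k (modularFunctionFieldFullC k N)) :
    FrDiv k ℓ N D = frobAut k ℓ N • D := rfl

theorem VerDiv_apply (D : Divisor k (modularFunctionFieldFullC k N)) :
    VerDiv k ℓ N D = ℓ • ((frobAut k ℓ N)⁻¹ • D) := rfl

theorem FrDiv_single (Q : Place k (modularFunctionFieldFullC k N)) (n : ℤ) :
    FrDiv k ℓ N (Finsupp.single Q n) = Finsupp.single (frobAut k ℓ N • Q) n := by
  rw [FrDiv_apply, SemilinearAut.smul_single]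

theorem VerDiv_single (Q : Place k (modularFunctionFieldFullC k N)) (n : ℤ) :
    VerDiv k ℓ N (Finsupp.single Q n) = Finsupp.single ((frobAut k ℓ N)⁻¹ • Q) (ℓ * n) := by
  rw [VerDiv_apply, SemilinearAut.smul_single, Finsupp.smul_single, nsmul_eq_mul]

/-- `div (σ u) = σ_* div u`. -/
theorem isDiv_FrDiv {D : Divisor k (modularFunctionFieldFullC k N)}
    {u : modularFunctionFieldFullC k N} (hD : ∀ Q, D Q = Q.ord u) :
    ∀ Q, FrDiv k ℓ N D Q = Q.ord (frobAut k ℓ N • u) :=
  isDiv_smul _ hD

/-- `div u(q ^ ℓ) = ℓ σ_*⁻¹ div u`. -/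
theorem isDiv_VerDiv {D : Divisor k (modularFunctionFieldFullC k N)}
    {u : modularFunctionFieldFullC k N} (hD : ∀ Q, D Q = Q.ord u) :
    ∀ Q, VerDiv k ℓ N D Q = Q.ord (vMap k ℓ N u) := fun Q => by
  rw [VerDiv_apply, Finsupp.smul_apply, SemilinearAut.divisor_smul_apply, inv_inv, hD, ord_vMap,
    nsmul_eq_mul]

/-- `div (σ u * u(q ^ ℓ)) = (σ_* + ℓ σ_*⁻¹) div u`. -/
theorem isDiv_FrDiv_add_VerDiv {D : Divisor k (modularFunctionFieldFullC k N)}
    {u : modularFunctionFieldFullC k N} (hu : u ≠ 0) (hD : ∀ Q, D Q = Q.ord u) :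
    ∀ Q, (FrDiv k ℓ N D + VerDiv k ℓ N D) Q = Q.ord ((frobAut k ℓ N • u) * vMap k ℓ N u) := by
  intro Q
  have h1 : frobAut k ℓ N • u ≠ 0 := by simpa using hu
  have h2 : vMap k ℓ N u ≠ 0 := by
    rw [vMap_eq]
    exact pow_ne_zero _ (by simpa using hu)
  rw [Finsupp.add_apply, isDiv_FrDiv k ℓ N hD, isDiv_VerDiv k ℓ N hD, Place.ord_mul _ h1 h2]

/-- Frobenius on `Pic0 (Fb_N)`. -/
def Fr : Pic0 k (modularFunctionFieldFullC k N) →+ Pic0 k (modularFunctionFieldFullC k N) :=
  picHom (frobAut k ℓ N)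

/-- Verschiebung on `Pic0 (Fb_N)`. -/
def Ver : Pic0 k (modularFunctionFieldFullC k N) →+ Pic0 k (modularFunctionFieldFullC k N) :=
  ℓ • picHom (frobAut k ℓ N)⁻¹

theorem Fr_apply (x : Pic0 k (modularFunctionFieldFullC k N)) :
    Fr k ℓ N x = frobAut k ℓ N • x := rfl

theorem Ver_apply (x : Pic0 k (modularFunctionFieldFullC k N)) :
    Ver k ℓ N x = ℓ • ((frobAut k ℓ N)⁻¹ • x) := rfl

theorem Ver_Fr (x : Pic0 k (modularFunctionFieldFullC k N)) :
    Ver k ℓ N (Fr k ℓ N x) = ℓ • x := by
  rw [Ver_apply, Fr_apply, inv_smul_smul]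

theorem Fr_Ver (x : Pic0 k (modularFunctionFieldFullC k N)) :
    Fr k ℓ N (Ver k ℓ N x) = ℓ • x := by
  rw [Ver_apply, map_nsmul, Fr_apply, smul_inv_smul]

theorem Fr_bijective : Function.Bijective (Fr k ℓ N) :=
  MulAction.bijective (frobAut k ℓ N)

theorem degree_FrDiv (D : Divisor k (modularFunctionFieldFullC k N)) :
    Divisor.degree (FrDiv k ℓ N D) = Divisor.degree D :=
  SemilinearAut.degree_smul _ D

theorem degree_VerDiv (D : Divisor k (modularFunctionFieldFullC k N)) :
    Divisor.degree (VerDiv k ℓ N D) = ℓ * Divisor.degree D := by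
  rw [VerDiv_apply, map_nsmul, SemilinearAut.degree_smul, nsmul_eq_mul]

/-- `Fr`, `Ver` on classes of degree zero divisors. -/
theorem Fr_add_Ver_mk (D : Divisor.degZero (K := k) (F := modularFunctionFieldFullC k N))
    (E : Divisor.degZero (K := k) (F := modularFunctionFieldFullC k N))
    (hE : (E : Divisor k (modularFunctionFieldFullC k N))
      = FrDiv k ℓ N (D : Divisor k _) + VerDiv k ℓ N (D : Divisor k _)) :
    Fr k ℓ N (Pic0.mk D) + Ver k ℓ N (Pic0.mk D) = Pic0.mk E := by
  rw [Fr_apply, Ver_apply, SemilinearAut.pic0_smul_mk, SemilinearAut.pic0_smul_mk]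
  have : E = SemilinearAut.degZeroSMulHom (frobAut k ℓ N) D
      + ℓ • SemilinearAut.degZeroSMulHom (frobAut k ℓ N)⁻¹ D := by
    apply Subtype.ext
    rw [hE]
    rfl
  rw [this, Pic0.mk_add]
  congr 1

end Frobenius

end

end Fermat.Agent.RED.FrobK
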