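import Fermat.Agent.S24.Degree

/-!
# The `q`-expansion principle in characteristic zero: abstract form
-/

set_option autoImplicit false

namespace Fermat.Agent.RED

open Fermat.Agent.S24 ModularCurve IntermediateField Polynomial
open scoped IntermediateField.algebraAdjoinAdjoin

noncomputable section

variable {K : Type*} [Field K] {F : Type*} [Field F] [Algebra K F]
  (emb : F →ₐ[K] LaurentSeries K) (j : F)

theorem emb_aeval_gen (Q : K[X]) :
    emb ((aeval (AdjoinSimple.gen K j) Q : K⟮j⟯) : F) = aeval (emb j) Q := by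
  have h1 : ((aeval (AdjoinSimple.gen K j) Q : K⟮j⟯) : F) = aeval j Q := by
    have := Polynomial.aeval_algHom_apply (K⟮j⟯).val (AdjoinSimple.gen K j) Q
    rw [IntermediateField.coe_val, AdjoinSimple.coe_gen] at this
    exact this.symm
  rw [h1]
  exact (Polynomial.aeval_algHom_apply emb j Q).symm

/-- If `s ∉ F`, then `s` together with a `K(j)`-independent family of `F` is independent over
`K(j)` inside `K((q))`. -/
theorem linearIndependent_option {m : ℕ} (b : Fin m → F)
    (hb : LinearIndependent K⟮j⟯ b) (s : LaurentSeries K) (hs : ∀ f : F, emb f ≠ s) :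
    LinearIndependent K⟮emb j⟯
      (fun x : Option (Fin m) => x.elim s (fun i => emb (b i))) := by
  classical
  set jS : LaurentSeries K := emb j with hjS
  rw [← LinearIndependent.iff_fractionRing (Algebra.adjoin K {jS}) K⟮jS⟯]
  rw [Fintype.linearIndependent_iff]
  intro g hg
  have hg' : ∀ x, ∃ Q : K[X], aeval jS Q = (g x : LaurentSeries K) := by
    intro x
    have h : ∀ z : LaurentSeries K, z ∈ Algebra.adjoin K {jS} → ∃ Q : K[X], aeval jS Q = z := by
      intro z hz
      rw [Algebra.adjoin_singleton_eq_range_aeval] at hz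
      exact hz
    exact h _ (g x).2
  choose Q hQ using hg'
  have hrel : aeval jS (Q none) * s + ∑ i, aeval jS (Q (some i)) * emb (b i) = 0 := by
    rw [← hg, Fintype.sum_option]
    congr 1
    · rw [hQ]; rfl
    · refine Finset.sum_congr rfl fun i _ => ?_
      rw [hQ]; rfl
  have hmem : ∀ P : K[X], aeval jS P = emb (aeval j P) := by
    intro P
    exact Polynomial.aeval_algHom_apply emb j P
  have h0 : aeval jS (Q none) = 0 := by
    by_contra hne
    apply hs (-(∑ i, aeval j (Q (some i)) * b i) / aeval j (Q none))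
    rw [map_div₀, map_neg, map_sum, ← hmem, div_eq_iff hne, neg_eq_iff_add_eq_zero, add_comm,
      mul_comm, ← hrel]
    congr 1
    refine Finset.sum_congr rfl fun i _ => ?_
    rw [map_mul, hmem]
  rw [h0, zero_mul, zero_add] at hrel
  have hrel' : ∑ i, (aeval (AdjoinSimple.gen K j) (Q (some i)) : K⟮j⟯) • b i = 0 := by
    apply emb.toRingHom.injective
    show emb _ = emb 0
    rw [map_zero, ← hrel, map_sum]
    refine Finset.sum_congr rfl fun i _ => ?_
    rw [IntermediateField.smul_def, smul_eq_mul, map_mul, emb_aeval_gen]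
  have h1 := Fintype.linearIndependent_iff.mp hb _ hrel'
  intro x
  apply Subtype.ext
  rw [← hQ]
  cases x with
  | none => rw [h0]; rfl
  | some i =>
    rw [hjS, ← emb_aeval_gen, h1 i]
    simp

variable (ι : K →+* ℂ) {P M : Type*} [Field P] [Field M] [Algebra ℂ P] [Algebra ℂ M]
  (T : P →ₐ[ℂ] M) (Λ : P →ₐ[ℂ] LaurentSeries ℂ)

/-- Relations over `ℂ[J]` in `M` between elements coming from `P` give relations between
the expansions. -/
theorem relation_transfer {I : Type*} [Fintype I] (J : P) (U : I → P) (p : I → ℂ[X])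
    (h : ∑ x, aeval (T J) (p x) * T (U x) = 0) :
    ∑ x, aeval (Λ J) (p x) * Λ (U x) = 0 := by
  have h1 : T (∑ x, aeval J (p x) * U x) = 0 := by
    rw [map_sum, ← h]
    refine Finset.sum_congr rfl fun x _ => ?_
    rw [map_mul, Polynomial.aeval_algHom_apply]
  have h2 := (map_eq_zero_iff _ T.toRingHom.injective).mp h1
  have h3 := congrArg Λ h2
  rw [map_zero, map_sum] at h3
  rw [← h3]
  refine Finset.sum_congr rfl fun x _ => ?_
  rw [map_mul, Polynomial.aeval_algHom_apply]

/-- **`q`-expansion principle, abstract form.** -/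
theorem mem_of_conjugates (hj : Transcendental K j) [FiniteDimensional K⟮j⟯ F]
    (Θ : F →+* P) (hΘ : ∀ f : F, Λ (Θ f) = coeffMap ι (emb f))
    (S : Finset M) {Idx : Type*} [Fintype Idx] (σ : Idx → M →ₐ[ℂ] M) (x0 : Idx)
    (hx0 : ∀ θ ∈ Algebra.adjoin ℂ (S : Set M), σ x0 θ = θ)
    (hP : ∀ θ ∈ Algebra.adjoin ℂ (S : Set M), ∀ i : ℕ, ∃ p : ℂ[X],
      (∏ x, (X - C (σ x θ))).coeff i = aeval (T (Θ j)) p)
    (hcard : Fintype.card Idx = Module.finrank K⟮j⟯ F)
    (hΘS : ∀ f : F, T (Θ f) ∈ IntermediateField.adjoin ℂ⟮T (Θ j)⟯ (S : Set M))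
    (u : P) (hu : T u ∈ S) (s : LaurentSeries K) (hs : Λ u = coeffMap ι s) :
    ∃ f : F, emb f = s := by
  classical
  by_contra hsF0
  have hsF : ∀ f : F, emb f ≠ s := fun f hf => hsF0 ⟨f, hf⟩
  let b := Module.finBasis K⟮j⟯ F
  have hw := linearIndependent_option emb j (fun i => b i) b.linearIndependent s hsF
  have hjS : Transcendental K (emb j) := by
    intro halg
    apply hj
    exact (isAlgebraic_algHom_iff emb emb.toRingHom.injective).mp halg
  let U : Option (Fin (Module.finrank K⟮j⟯ F)) → P := fun x => x.elim u (fun i => Θ (b i))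
  have hUL : ∀ x, Λ (U x) = coeffMap ι (x.elim s (fun i => emb (b i))) := by
    intro x
    cases x with
    | none => exact hs
    | some i => exact hΘ _
  set JM : M := T (Θ j) with hJM
  have hv : LinearIndependent ℂ⟮JM⟯ (fun x => T (U x)) := by
    rw [← LinearIndependent.iff_fractionRing (Algebra.adjoin ℂ {JM}) ℂ⟮JM⟯]
    rw [Fintype.linearIndependent_iff]
    intro g hg
    have hg' : ∀ x, ∃ p : ℂ[X], aeval JM p = (g x : M) := by
      intro x
      have h : ∀ z : M, z ∈ Algebra.adjoin ℂ {JM} → ∃ p : ℂ[X], aeval JM p = z := by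
        intro z hz
        rw [Algebra.adjoin_singleton_eq_range_aeval] at hz
        exact hz
      exact h _ (g x).2
    choose p hp using hg'
    have h1 : ∑ x, aeval (T (Θ j)) (p x) * T (U x) = 0 := by
      rw [← hg]
      refine Finset.sum_congr rfl fun x _ => ?_
      rw [← hJM, hp x]
      rfl
    have h2 := relation_transfer T Λ (Θ j) U p h1
    simp only [hUL, hΘ] at h2
    have h3 := poly_relation_descent ι (AlgHom.id K (LaurentSeries K)) (emb j)
      hjS _ hw p h2
    intro x
    apply Subtype.ext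
    rw [← hp x, h3]
    simp
  have hchar : CharZero ℂ⟮JM⟯ := charZero_of_injective_algebraMap (algebraMap ℂ ℂ⟮JM⟯).injective
  obtain ⟨hfdL, hleL⟩ := finrank_adjoin_le_card (C := ℂ) (k := ℂ⟮JM⟯) (M := M)
    (fun x => (σ x).toLinearMap) x0 S hx0
    (by
      intro θ hθ
      rw [← Polynomial.mem_lifts, Polynomial.lifts_iff_coeff_lifts]
      intro i
      obtain ⟨p, hp⟩ := hP θ hθ i
      refine ⟨aeval (AdjoinSimple.gen ℂ JM) p, ?_⟩
      simp only [AlgHom.toLinearMap_apply]
      rw [hp, ← Polynomial.aeval_algebraMap_apply]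
      simp)
  set L := IntermediateField.adjoin ℂ⟮JM⟯ (S : Set M) with hL
  have hmemL : ∀ x, T (U x) ∈ L := by
    intro x
    cases x with
    | none => exact IntermediateField.subset_adjoin _ _ hu
    | some i => exact hΘS _
  have h2 : LinearIndependent ℂ⟮JM⟯ (fun x => (⟨T (U x), hmemL x⟩ : L)) := by
    refine LinearIndependent.of_comp L.val.toLinearMap ?_
    exact hv
  have h3 := h2.fintype_card_le_finrank
  rw [Fintype.card_option, Fintype.card_fin] at h3
  omega

end

end Fermat.Agent.RED
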