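import Fermat.Agent.RED.TorsESAbs
import Fermat.Agent.GAL.HeckeInputs
import Fermat.Prelude.Def_ModularCurve_HeckeModule

/-!
# RED / TorsES : inertia and Frobenius on the prime-to-`ℓ` torsion of `J₀(N)`, directly from (K)

Let `A` be a valuation ring of `ℚ̄` above `ℓ`, `π : A → k` its residue map and `hN` the
normalisation property of `F_N = modularFunctionFieldBar N` (Gauss valuation on `q`-expansions).

* `K1 hN m` : the special case "reduction `= 1`" of the statement (K):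
  a Gauss unit `g ≡ 1` whose divisor is divisible by `m` has divisor `m • div h`.
* `Congr hN ℓ` : Kronecker's congruence
  `red (N_α (β y)) = (red y)(q ^ ℓ) * Frob (red y)`.

From these we deduce, *without any reduction map on places or divisors*:

* `esUnram` : inertia at `A` acts trivially on `J₀(N)[m]`;
* `esQuad`  : a Frobenius lift `σ` satisfies `σ² - T_ℓ σ + ℓ = 0` on `J₀(N)[m]`.
-/

set_option autoImplicit false
set_option linter.style.haveILetI false
set_option linter.unusedSectionVars false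
noncomputable section

open ModularCurve AlgebraicCurve

namespace Fermat.Agent.RED.TorsES

open Fermat.Agent.RED.Gauss Fermat.Agent.GAL.HeckeInputs

local notation "Qb" => AlgebraicClosure ℚ

variable {N : ℕ} [NeZero N] {A : ValuationSubring Qb} {k : Type*} [Field k] {π : A →+* k}

/-- The special case "reduction `= 1`" of (K) for the exponent `m`. -/
def K1 (hN : Norm π (modularFunctionFieldBar N)) (m : ℕ) : Prop :=
  ∀ g : gO hN, gRed hN g = 1 →
    (∀ P : Place Qb (modularFunctionFieldBar N), (m : ℤ) ∣ P.ord (g : modularFunctionFieldBar N)) →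
    ∃ h : modularFunctionFieldBar N, h ≠ 0 ∧
      ∀ P : Place Qb (modularFunctionFieldBar N),
        P.ord (g : modularFunctionFieldBar N) = m * P.ord h

/-- Kronecker's congruence for the norm of `y(q ^ ℓ)`. -/
def Congr (hN : Norm π (modularFunctionFieldBar N)) (ℓ : ℕ) [NeZero ℓ] [Fact ℓ.Prime]
    [CharP k ℓ] : Prop :=
  ∀ y : (gO hN)ˣ, ∃ n : gO hN,
    (n : modularFunctionFieldBar N) =
      normAlong (heckeAlphaBar Qb N ℓ)
        (heckeBetaBar Qb N ℓ ((y : gO hN) : modularFunctionFieldBar N)) ∧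
    gRed hN n = qExpand k ℓ (gRed hN y) * coeffMap (frobenius k ℓ) (gRed hN y)

section Galois

variable (hN : Norm π (modularFunctionFieldBar N))

theorem galois_mem_gO {σ : Qb ≃ₐ[ℚ] Qb} (hσ : σ ∈ A.decompositionSubgroup ℚ) (sb : k →+* k)
    (hsb : ∀ a : A, π (resA A σ hσ a) = sb (π a)) (y : gO hN) :
    (arithmeticGalois (modularFunctionFieldFull N) σ • (y : modularFunctionFieldBar N)) ∈ gO hN :=
  coeffMap_mem_bigO _ (resA A σ hσ) sb (coe_resA A σ hσ) hsb y.2

theorem gRed_galois {σ : Qb ≃ₐ[ℚ] Qb} (hσ : σ ∈ A.decompositionSubgroup ℚ) (sb : k →+* k)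
    (hsb : ∀ a : A, π (resA A σ hσ a) = sb (π a)) (y : gO hN) :
    gRed hN ⟨_, galois_mem_gO hN hσ sb hsb y⟩ = coeffMap sb (gRed hN y) :=
  bigRed_coeffMap _ (resA A σ hσ) sb (coe_resA A σ hσ) hsb y.2

end Galois

theorem mk_eq_zero_of_gRed_eq_one (hN : Norm π (modularFunctionFieldBar N)) {m : ℕ} (hm : m ≠ 0)
    (hK : K1 hN m)
    (D : Divisor.degZero (K := Qb) (F := modularFunctionFieldBar N)) (g : gO hN)
    (hg : gRed hN g = 1)
    (hD : IsDiv (m : ℤ) (D : Divisor Qb (modularFunctionFieldBar N))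
      (g : modularFunctionFieldBar N)) : Pic0.mk D = 0 :=
  mk_eq_zero_of_isDiv (by exact_mod_cast hm) hD (hK g hg fun P => ⟨_, (hD.2 P).symm⟩)

theorem coe_units_inv {F : Type*} [Field F] {O : ValuationSubring F} (u : Oˣ) :
    (((u⁻¹ : Oˣ) : O) : F) = ((u : O) : F)⁻¹ := by
  have h1 : ((u : O) : F) * (((u⁻¹ : Oˣ) : O) : F) = 1 := congrArg Subtype.val (Units.mul_inv u)
  exact eq_inv_of_mul_eq_one_right h1

/-- a torsion class is represented by a Gauss unit -/
theorem exists_unit_isDiv (hN : Norm π (modularFunctionFieldBar N)) {m : ℕ}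
    {D : Divisor.degZero (K := Qb) (F := modularFunctionFieldBar N)}
    (hx : m • Pic0.mk D = 0) :
    ∃ u : (gO hN)ˣ, IsDiv (m : ℤ) (D : Divisor Qb (modularFunctionFieldBar N))
      ((u : gO hN) : modularFunctionFieldBar N) := by
  obtain ⟨f, hf⟩ := exists_isDiv_of_nsmul_eq_zero hx
  obtain ⟨c, u, _, rfl⟩ := exists_const_mul_unit hN f hf.1
  exact ⟨u, hf.of_const_mul⟩

/-- **Inertia acts trivially on the `m`-torsion.** -/
theorem esUnram (hN : Norm π (modularFunctionFieldBar N)) {m : ℕ} (hm : m ≠ 0) (hK : K1 hN m)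
    {σ : Qb ≃ₐ[ℚ] Qb} (hσ : σ ∈ A.inertiaSubgroupIn ℚ) (x : JZero N) (hx : m • x = 0) :
    σ • x = x := by
  obtain ⟨D, rfl⟩ := Pic0.mk_surjective x
  obtain ⟨u, hu⟩ := exists_unit_isDiv hN hx
  obtain ⟨τ, hτ, rfl⟩ := hσ
  have hsb := pi_resA_of_inertia (K := ℚ) hN.surj τ hτ
  set s := arithmeticGalois (L := Qb) (modularFunctionFieldFull N) (τ : Qb ≃ₐ[ℚ] Qb) with hs
  let u1 : gO hN := ⟨_, galois_mem_gO hN τ.2 (RingHom.id k) hsb u⟩
  have hu1 : gRed hN u1 = gRed hN u := by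
    rw [gRed_galois hN τ.2 (RingHom.id k) hsb u, coeffMap_id]
  rw [← sub_eq_zero]
  change s • Pic0.mk D - Pic0.mk D = 0
  rw [SemilinearAut.pic0_smul_mk, ← mk_sub']
  refine mk_eq_zero_of_gRed_eq_one hN hm hK _ (u1 * ((u⁻¹ : (gO hN)ˣ) : gO hN)) ?_ ?_
  · rw [map_mul, hu1, ← map_mul, Units.mul_inv, map_one]
  · have h := (hu.smul s).mul hu.inv
    rw [← sub_eq_add_neg] at h
    have e : (((u1 * ((u⁻¹ : (gO hN)ˣ) : gO hN) : gO hN)) : modularFunctionFieldBar N) =
        s • ((u : gO hN) : modularFunctionFieldBar N) *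
          ((u : gO hN) : modularFunctionFieldBar N)⁻¹ := by
      rw [← coe_units_inv]; rfl
    rw [e]
    exact h

/-- **The Eichler–Shimura relation on the `m`-torsion.** -/
theorem esQuad (hN : Norm π (modularFunctionFieldBar N)) {m : ℕ} (hm : m ≠ 0) (hK : K1 hN m)
    {ℓ : ℕ} (hℓ : ℓ.Prime) [NeZero ℓ] [Fact ℓ.Prime] [CharP k ℓ] (hC : Congr hN ℓ)
    {σ : Qb ≃ₐ[ℚ] Qb} (hσ : A.IsFrobeniusAt σ ℓ) (x : JZero N) (hx : m • x = 0) :
    σ • σ • x - heckeOperatorBar N ⟨ℓ, hℓ⟩ (σ • x) + ℓ • x = 0 := by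
  obtain ⟨D, rfl⟩ := Pic0.mk_surjective x
  obtain ⟨u, hu⟩ := exists_unit_isDiv hN hx
  have hdec := hσ.mem_decompositionSubgroup
  have hsb := pi_resA_of_frobenius (K := ℚ) hN.surj hσ
  set s := arithmeticGalois (L := Qb) (modularFunctionFieldFull N) σ with hs
  set Fr := coeffMap (frobenius k ℓ) with hFr
  let u1 : gO hN := ⟨_, galois_mem_gO hN hdec _ hsb u⟩
  have hu1 : gRed hN u1 = Fr (gRed hN u) := gRed_galois hN hdec _ hsb u
  let u2 : gO hN := ⟨_, galois_mem_gO hN hdec _ hsb u1⟩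
  have hu2 : gRed hN u2 = Fr (Fr (gRed hN u)) := by
    rw [← hu1]; exact gRed_galois hN hdec _ hsb u1
  have hu0 : gRed hN u ≠ 0 := (isUnit_iff_gRed_ne_zero hN _).mp u.isUnit
  have hFr0 : ∀ z : LaurentSeries k, z ≠ 0 → Fr z ≠ 0 := fun z hz h0 =>
    hz (coeffMap_injective _ (frobenius k ℓ).injective (by rw [h0, map_zero]))
  have hu1u : IsUnit u1 := (isUnit_iff_gRed_ne_zero hN _).mpr (by rw [hu1]; exact hFr0 _ hu0)
  obtain ⟨n, hn, hnred⟩ := hC hu1u.unit
  rw [IsUnit.unit_spec, hu1, ← pow_char_eq] at hnred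
  have hnu : IsUnit n := (isUnit_iff_gRed_ne_zero hN _).mpr (by
    rw [hnred]; exact mul_ne_zero (pow_ne_zero _ hu0) (hFr0 _ (hFr0 _ hu0)))
  rw [IsUnit.unit_spec] at hn
  -- rewrite everything in terms of divisors
  change s • s • Pic0.mk D - heckeOperatorAlong Qb N ℓ (s • Pic0.mk D) + ℓ • Pic0.mk D = 0
  have hT : ∀ E : Divisor.degZero (K := Qb) (F := modularFunctionFieldBar N),
      heckePic0Bar (heckeAlphaBarIntegral N ℓ) (heckeBetaBarIntegral N ℓ)
        (fundamentalIdentityAlong_beta N ℓ) (finiteAlong_alpha N ℓ) (normFormulaAlong_alpha N ℓ)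
        (Pic0.mk E) =
      Pic0.mk (Pic0.degZeroCorrespondence (heckeBetaBar Qb N ℓ) (heckeAlphaBar Qb N ℓ)
        (heckeBetaBarIntegral N ℓ) (heckeAlphaBarIntegral N ℓ)
        (fundamentalIdentityAlong_beta N ℓ) E) := fun _ => rfl
  rw [heckeOperatorAlong_eq' N ℓ, SemilinearAut.pic0_smul_mk, SemilinearAut.pic0_smul_mk,
    hT, ← mk_sub', ← mk_nsmul', ← Pic0.mk_add]
  refine mk_eq_zero_of_gRed_eq_one hN hm hK _
    (u2 * ((hnu.unit⁻¹ : (gO hN)ˣ) : gO hN) * (u : gO hN) ^ ℓ) ?_ ?_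
  · have h1 : gRed hN n * gRed hN ((hnu.unit⁻¹ : (gO hN)ˣ) : gO hN) = 1 := by
      rw [← map_mul]
      rw [hnu.mul_val_inv, map_one]
    rw [map_mul, map_mul, map_pow, hu2]
    rw [hnred] at h1
    calc Fr (Fr (gRed hN u)) * gRed hN ((hnu.unit⁻¹ : (gO hN)ˣ) : gO hN) * gRed hN u ^ ℓ
        = gRed hN u ^ ℓ * Fr (Fr (gRed hN u)) * gRed hN ((hnu.unit⁻¹ : (gO hN)ˣ) : gO hN) := by
          ring
      _ = 1 := h1
  · have h1 := hu.smul s
    have h2 := h1.smul s
    have h3 := h1.correspondence (heckeBetaBar Qb N ℓ) (heckeAlphaBar Qb N ℓ)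
      (heckeBetaBarIntegral N ℓ) (heckeAlphaBarIntegral N ℓ) (finiteAlong_alpha N ℓ)
      (normFormulaAlong_alpha N ℓ)
    have h := (h2.mul h3.inv).mul (hu.pow ℓ)
    rw [← sub_eq_add_neg] at h
    have e : ((u2 * ((hnu.unit⁻¹ : (gO hN)ˣ) : gO hN) * (u : gO hN) ^ ℓ : gO hN) :
        modularFunctionFieldBar N) =
        s • s • ((u : gO hN) : modularFunctionFieldBar N) *
          (normAlong (heckeAlphaBar Qb N ℓ) (heckeBetaBar Qb N ℓ
            (s • ((u : gO hN) : modularFunctionFieldBar N))))⁻¹ *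
          ((u : gO hN) : modularFunctionFieldBar N) ^ ℓ := by
      have e1 : (((hnu.unit⁻¹ : (gO hN)ˣ) : gO hN) : modularFunctionFieldBar N) =
          (n : modularFunctionFieldBar N)⁻¹ := by
        rw [coe_units_inv, hnu.unit_spec]
      rw [← hn, ← e1]; rfl
    rw [e]
    exact h

end Fermat.Agent.RED.TorsES
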