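import Fermat.Agent.RED.TorsES
import Fermat.Agent.RED.Gauss.Bridge
import Fermat.Agent.RED.S18.KProp

/-!
# RED / TorsES : wiring

`ESUnram N p` and `ESQuad N p` (project GAL, `GAL/S29Core.lean`; stated here in unfolded form, so
that this file does not import GAL) from

* `KAll N`     : the Kummer property (K) of the Gauss datum of `F_N` at all places above `ℓ ∤ N`;
* `CongrAll N` : Kronecker's congruence at all places above `ℓ ∤ N`.
-/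

set_option autoImplicit false
set_option linter.style.haveILetI false
set_option linter.unusedSectionVars false
set_option synthInstance.maxHeartbeats 400000
noncomputable section

open ModularCurve AlgebraicCurve

namespace Fermat.Agent.RED.TorsES

open Fermat.Agent.RED.Gauss

local notation "Qb" => AlgebraicClosure ℚ

/-- (K1) from the official (K). -/
theorem K1_of_kProp {N : ℕ} [NeZero N] {A : ValuationSubring Qb} {ℓ : ℕ} [Fact ℓ.Prime]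
    (hA : A.LiesOverPrime ℓ) (hℓN : ¬ ℓ ∣ N) {m : ℕ} (hm : m ≠ 0)
    (HK : KProp (gaussData A N hA hℓN) m) : K1 (gaussNormBar A N hA hℓN) m := by
  intro g hg hdiv
  obtain ⟨h, hh⟩ := HK g 1 one_ne_zero
    (by rw [one_pow]; exact Subtype.ext ((coe_gaussData_red A N hA hℓN g).trans hg)) hdiv
  have hg0 : (g : modularFunctionFieldBar N) ≠ 0 := by
    intro h0
    have : g = 0 := Subtype.ext h0
    rw [this, map_zero] at hg
    exact zero_ne_one hg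
  have hh0 : h ≠ 0 := by
    rintro rfl
    rw [zero_pow hm] at hh
    exact hg0 hh.symm
  refine ⟨h, hh0, fun P => ?_⟩
  rw [← hh, ← zpow_natCast, P.ord_zpow]

/-- The Kummer property (K) of the Gauss datum of `F_N` at all places of good reduction. -/
def KAll (N : ℕ) [NeZero N] : Prop :=
  ∀ (ℓ : ℕ) [Fact ℓ.Prime] (hℓN : ¬ ℓ ∣ N) (A : ValuationSubring Qb) (hA : A.LiesOverPrime ℓ)
    (m : ℕ), ¬ ℓ ∣ m → KProp (gaussData A N hA hℓN) m

/-- Kronecker's congruence at all places of good reduction. -/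
def CongrAll (N : ℕ) [NeZero N] : Prop :=
  ∀ (ℓ : ℕ) [Fact ℓ.Prime] [NeZero ℓ] (hℓN : ¬ ℓ ∣ N) (A : ValuationSubring Qb)
    (hA : A.LiesOverPrime ℓ),
    haveI := charP_residueField A hA
    Congr (gaussNormBar A N hA hℓN) ℓ

variable {N : ℕ} [NeZero N]

private theorem aux_not_dvd {ℓ p : ℕ} (hℓ : ℓ.Prime) (h : ¬ ℓ ∣ N * p) (n : ℕ) : ¬ ℓ ∣ p ^ n :=
  fun h' => h ((hℓ.dvd_of_dvd_pow h').mul_left N)

/-- `Fermat.Agent.GAL.ESUnram N p`, unfolded. -/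
theorem esUnram_of (hK : KAll N) (p : ℕ) :
    ∀ ℓ : ℕ, ℓ.Prime → ¬ ℓ ∣ N * p → ∀ A : ValuationSubring Qb, A.LiesOverPrime ℓ →
      ∀ σ ∈ A.inertiaSubgroupIn ℚ, ∀ x : JZero N, (∃ n : ℕ, p ^ n • x = 0) → σ • x = x := by
  intro ℓ hℓ hℓNp A hA σ hσ x ⟨n, hn⟩
  haveI : Fact ℓ.Prime := ⟨hℓ⟩
  have hℓN : ¬ ℓ ∣ N := fun h' => hℓNp (h'.mul_right p)
  have hm : ¬ ℓ ∣ p ^ n := aux_not_dvd hℓ hℓNp n
  have hm0 : p ^ n ≠ 0 := fun h0 => hm (h0 ▸ dvd_zero ℓ)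
  exact esUnram (gaussNormBar A N hA hℓN) hm0 (K1_of_kProp hA hℓN hm0 (hK ℓ hℓN A hA _ hm)) hσ x hn

/-- `Fermat.Agent.GAL.ESQuad N p`, unfolded. -/
theorem esQuad_of (hK : KAll N) (hC : CongrAll N) (p : ℕ) :
    ∀ ℓ : ℕ, (hℓ : ℓ.Prime) → ¬ ℓ ∣ N * p → ∀ A : ValuationSubring Qb, A.LiesOverPrime ℓ →
      ∀ σ : Qb ≃ₐ[ℚ] Qb, A.IsFrobeniusAt σ ℓ → ∀ x : JZero N, (∃ n : ℕ, p ^ n • x = 0) →
        σ • σ • x - heckeOperatorBar N ⟨ℓ, hℓ⟩ (σ • x) + ℓ • x = 0 := by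
  intro ℓ hℓ hℓNp A hA σ hσ x ⟨n, hn⟩
  haveI : Fact ℓ.Prime := ⟨hℓ⟩
  haveI : NeZero ℓ := ⟨hℓ.ne_zero⟩
  haveI := charP_residueField A hA
  have hℓN : ¬ ℓ ∣ N := fun h' => hℓNp (h'.mul_right p)
  have hm : ¬ ℓ ∣ p ^ n := aux_not_dvd hℓ hℓNp n
  have hm0 : p ^ n ≠ 0 := fun h0 => hm (h0 ▸ dvd_zero ℓ)
  exact esQuad (gaussNormBar A N hA hℓN) hm0 (K1_of_kProp hA hℓN hm0 (hK ℓ hℓN A hA _ hm)) hℓ
    (hC ℓ hℓN A hA) hσ x hn

end Fermat.Agent.RED.TorsES
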